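import Fermat.Agent.S16.LB.HeckeDec

/-!
# S41, package HK: integer `2 × 2` matrices of nonzero determinant inside `GL₂(ℝ)`

All coset computations of the package are done in `M₂(ℤ)` and transported to `GL (Fin 2) ℝ`
(the ambient group of `s16lbDataT`, `s16lbDataU`) through `s41hkGL`.

* `s41hkGL m h : GL (Fin 2) ℝ` for `m : Matrix (Fin 2) (Fin 2) ℤ`, `h : m.det ≠ 0`;
  `s41hkGL_mul`, `s41hkGL_injective`, `s41hkGL_coe_SL` (`mapGL ℝ g = s41hkGL g _`),
  `s41hk_heckeRep_eq` (`heckeRep ℓ x = s41hkGL !![A, B; 0, D] _`).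
* `s41hk_conj_of_int`: an identity `m * g = g' * m'` in `M₂(ℤ)` gives
  `s41hkGL m * mapGL g = mapGL g' * s41hkGL m'`.
* `s41hk_exists_heckeRep` (**Lemma F**): an integer matrix of determinant `ℓ` (prime) is
  `g * heckeRep ℓ y` with `g ∈ SL₂(ℤ)`, and the lower left entry of `g` is the one of `m`
  divided by `1` or `ℓ`.
-/

set_option autoImplicit false

noncomputable section

namespace Fermat.Agent.S41

open P2MW.S_ModularForm_heckeT_slash_eq_self_of_mem_Gamma0.ModularForm.HeckeSlashInvariance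
open ModularForm CongruenceSubgroup Matrix.SpecialLinearGroup Fermat.Agent.S16LB
open scoped MatrixGroups

/-- an integer matrix of nonzero determinant, in `GL₂(ℝ)`. -/
def s41hkGL (m : Matrix (Fin 2) (Fin 2) ℤ) (h : m.det ≠ 0) : GL (Fin 2) ℝ :=
  Matrix.GeneralLinearGroup.mkOfDetNeZero (m.map (Int.cast : ℤ → ℝ)) (by
    have h1 : (m.map (Int.cast : ℤ → ℝ)).det = ((m.det : ℤ) : ℝ) :=
      ((Int.castRingHom ℝ).map_det m).symm
    rw [h1]
    exact_mod_cast h)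

@[simp] theorem s41hkGL_val (m : Matrix (Fin 2) (Fin 2) ℤ) (h : m.det ≠ 0) :
    ((s41hkGL m h : GL (Fin 2) ℝ) : Matrix (Fin 2) (Fin 2) ℝ) = m.map (Int.cast : ℤ → ℝ) := rfl

theorem s41hkGL_mul (m m' : Matrix (Fin 2) (Fin 2) ℤ) (h : m.det ≠ 0) (h' : m'.det ≠ 0) :
    s41hkGL m h * s41hkGL m' h'
      = s41hkGL (m * m') (by rw [Matrix.det_mul]; exact mul_ne_zero h h') := by
  apply Units.ext
  rw [Units.val_mul, s41hkGL_val, s41hkGL_val, s41hkGL_val]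
  exact (Matrix.map_mul (f := Int.castRingHom ℝ)).symm

theorem s41hkGL_congr {m m' : Matrix (Fin 2) (Fin 2) ℤ} (hmm : m = m') (h : m.det ≠ 0) :
    s41hkGL m h = s41hkGL m' (hmm ▸ h) := by
  subst hmm
  rfl

theorem s41hkGL_injective {m m' : Matrix (Fin 2) (Fin 2) ℤ} {h : m.det ≠ 0} {h' : m'.det ≠ 0}
    (heq : s41hkGL m h = s41hkGL m' h') : m = m' := by
  have h1 := congrArg (fun g : GL (Fin 2) ℝ => (g : Matrix (Fin 2) (Fin 2) ℝ)) heq
  simp only [s41hkGL_val] at h1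
  ext i j
  have h2 := congrFun (congrFun h1 i) j
  simp only [Matrix.map_apply] at h2
  exact_mod_cast h2

theorem s41hkGL_coe_SL (g : SL(2, ℤ)) :
    (mapGL ℝ g : GL (Fin 2) ℝ)
      = s41hkGL (g : Matrix (Fin 2) (Fin 2) ℤ) (by rw [g.det_coe]; exact one_ne_zero) := by
  apply Units.ext
  rw [s41hkGL_val, s16lb_val_mapGL]
  ext i j
  fin_cases i <;> fin_cases j <;> simp

/-- an identity in `M₂(ℤ)` gives the corresponding identity in `GL₂(ℝ)`. -/
theorem s41hk_conj_of_int {m m' : Matrix (Fin 2) (Fin 2) ℤ} (h : m.det ≠ 0) (h' : m'.det ≠ 0)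
    {g g' : SL(2, ℤ)}
    (hint : m * (g : Matrix (Fin 2) (Fin 2) ℤ) = (g' : Matrix (Fin 2) (Fin 2) ℤ) * m') :
    s41hkGL m h * mapGL ℝ g = mapGL ℝ g' * s41hkGL m' h' := by
  rw [s41hkGL_coe_SL, s41hkGL_coe_SL, s41hkGL_mul, s41hkGL_mul]
  exact s41hkGL_congr hint _

/-- conversely. -/
theorem s41hk_int_of_conj {m m' : Matrix (Fin 2) (Fin 2) ℤ} (h : m.det ≠ 0) (h' : m'.det ≠ 0)
    {g g' : SL(2, ℤ)} (hc : s41hkGL m h * mapGL ℝ g = mapGL ℝ g' * s41hkGL m' h') :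
    m * (g : Matrix (Fin 2) (Fin 2) ℤ) = (g' : Matrix (Fin 2) (Fin 2) ℤ) * m' := by
  rw [s41hkGL_coe_SL, s41hkGL_coe_SL, s41hkGL_mul, s41hkGL_mul] at hc
  exact s41hkGL_injective hc

section Rep

variable (ℓ : ℕ) [Fact ℓ.Prime]

/-- the integer matrix of the representative `heckeRep ℓ x`. -/
def s41hkRepMat (x : OnePoint (ZMod ℓ)) : Matrix (Fin 2) (Fin 2) ℤ :=
  !![(s16lbRepA ℓ x : ℤ), (s16lbRepB ℓ x : ℤ); 0, (s16lbRepD ℓ x : ℤ)]

omit [Fact ℓ.Prime] in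
theorem s41hkRepMat_det (x : OnePoint (ZMod ℓ)) : (s41hkRepMat ℓ x).det = ℓ := by
  rw [s41hkRepMat, Matrix.det_fin_two_of]
  induction x using OnePoint.rec with
  | infty => simp [s16lbRepA, s16lbRepD]
  | coe j => simp [s16lbRepA, s16lbRepD]

theorem s41hkRepMat_det_ne_zero (x : OnePoint (ZMod ℓ)) : (s41hkRepMat ℓ x).det ≠ 0 := by
  rw [s41hkRepMat_det]
  exact_mod_cast (Fact.out : ℓ.Prime).ne_zero

theorem s41hk_heckeRep_eq (x : OnePoint (ZMod ℓ)) :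
    heckeRep ℓ x = s41hkGL (s41hkRepMat ℓ x) (s41hkRepMat_det_ne_zero ℓ x) := by
  apply Units.ext
  rw [s16lb_val_heckeRep, s41hkGL_val, s41hkRepMat]
  ext i j
  fin_cases i <;> fin_cases j <;> simp

/-- **Lemma F**: every integer matrix of determinant `ℓ` is `g * (representative)` with
`g ∈ SL₂(ℤ)`; the lower left entry of `g` times `A_y` is the lower left entry of `m`. -/
theorem s41hk_exists_heckeRep (m : Matrix (Fin 2) (Fin 2) ℤ) (hm : m.det = ℓ) :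
    ∃ (g : SL(2, ℤ)) (y : OnePoint (ZMod ℓ)),
      m = (g : Matrix (Fin 2) (Fin 2) ℤ) * s41hkRepMat ℓ y ∧
        m 1 0 = g 1 0 * (s16lbRepA ℓ y : ℤ) := by
  have hℓ : ℓ.Prime := Fact.out
  have hℓ0 : (ℓ : ℤ) ≠ 0 := by exact_mod_cast hℓ.ne_zero
  rw [Matrix.det_fin_two] at hm
  by_cases hcol : (ℓ : ℤ) ∣ m 0 0 ∧ (ℓ : ℤ) ∣ m 1 0
  · -- the representative at infinity
    obtain ⟨⟨a, ha⟩, ⟨c, hc⟩⟩ := hcol
    have hdet : a * m 1 1 - m 0 1 * c = 1 := by
      have : (ℓ : ℤ) * (a * m 1 1 - m 0 1 * c) = ℓ * 1 := by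
        rw [mul_one]; rw [ha, hc] at hm; linear_combination hm
      exact mul_left_cancel₀ hℓ0 this
    refine ⟨⟨!![a, m 0 1; c, m 1 1], by rw [Matrix.det_fin_two_of]; exact hdet⟩,
      (OnePoint.infty : OnePoint (ZMod ℓ)), ?_, ?_⟩
    · ext i j
      fin_cases i <;> fin_cases j <;>
        simp [s41hkRepMat, s16lbRepA, s16lbRepB, s16lbRepD, Matrix.mul_apply, Fin.sum_univ_two,
          ha, hc, mul_comm]
    · simp [s16lbRepA, hc, mul_comm]
  · -- a finite representative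
    have hex : ∃ j : ZMod ℓ, (ℓ : ℤ) ∣ m 0 1 - m 0 0 * (j.val : ℤ) ∧
        (ℓ : ℤ) ∣ m 1 1 - m 1 0 * (j.val : ℤ) := by
      have : NeZero ℓ := ⟨hℓ.ne_zero⟩
      have hdetz : ((m 0 0 : ℤ) : ZMod ℓ) * (m 1 1 : ℤ)
          - ((m 0 1 : ℤ) : ZMod ℓ) * (m 1 0 : ℤ) = 0 := by
        have := congrArg (Int.cast : ℤ → ZMod ℓ) hm
        push_cast at this
        rw [this]
        simp
      have key : ∀ j : ZMod ℓ, ((m 0 1 : ℤ) : ZMod ℓ) = (m 0 0 : ℤ) * j →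
          ((m 1 1 : ℤ) : ZMod ℓ) = (m 1 0 : ℤ) * j →
          (ℓ : ℤ) ∣ m 0 1 - m 0 0 * (j.val : ℤ) ∧ (ℓ : ℤ) ∣ m 1 1 - m 1 0 * (j.val : ℤ) := by
        intro j h1 h2
        constructor
        · rw [← ZMod.intCast_zmod_eq_zero_iff_dvd]
          push_cast
          rw [ZMod.natCast_zmod_val, h1, sub_self]
        · rw [← ZMod.intCast_zmod_eq_zero_iff_dvd]
          push_cast
          rw [ZMod.natCast_zmod_val, h2, sub_self]
      have : Fact ℓ.Prime := ⟨hℓ⟩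
      by_cases ha : ((m 0 0 : ℤ) : ZMod ℓ) = 0
      · have hc : ((m 1 0 : ℤ) : ZMod ℓ) ≠ 0 := by
          intro hc
          apply hcol
          exact ⟨(ZMod.intCast_zmod_eq_zero_iff_dvd _ _).mp ha,
            (ZMod.intCast_zmod_eq_zero_iff_dvd _ _).mp hc⟩
        refine ⟨((m 1 1 : ℤ) : ZMod ℓ) * ((m 1 0 : ℤ) : ZMod ℓ)⁻¹, key _ ?_ ?_⟩
        · rw [ha, zero_mul]
          rw [ha, zero_mul, zero_sub, neg_eq_zero] at hdetz
          rcases mul_eq_zero.mp hdetz with h | h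
          · exact h
          · exact absurd h hc
        · field_simp
      · refine ⟨((m 0 1 : ℤ) : ZMod ℓ) * ((m 0 0 : ℤ) : ZMod ℓ)⁻¹, key _ ?_ ?_⟩
        · field_simp
        · have : ((m 1 1 : ℤ) : ZMod ℓ) * (m 0 0 : ℤ) = (m 1 0 : ℤ) * (m 0 1 : ℤ) := by
            linear_combination hdetz
          field_simp
          linear_combination this
    obtain ⟨j, ⟨b, hb⟩, ⟨d, hd⟩⟩ := hex
    have hdet : m 0 0 * d - b * m 1 0 = 1 := by
      have : (ℓ : ℤ) * (m 0 0 * d - b * m 1 0) = ℓ * 1 := by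
        rw [mul_one]
        have hb' : m 0 1 = m 0 0 * (j.val : ℤ) + ℓ * b := by linarith
        have hd' : m 1 1 = m 1 0 * (j.val : ℤ) + ℓ * d := by linarith
        rw [hb', hd'] at hm
        linear_combination hm
      exact mul_left_cancel₀ hℓ0 this
    refine ⟨⟨!![m 0 0, b; m 1 0, d], by rw [Matrix.det_fin_two_of]; exact hdet⟩,
      ((j : ZMod ℓ) : OnePoint (ZMod ℓ)), ?_, ?_⟩
    · have hb' : m 0 1 = m 0 0 * (j.val : ℤ) + ℓ * b := by linarith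
      have hd' : m 1 1 = m 1 0 * (j.val : ℤ) + ℓ * d := by linarith
      ext i k
      fin_cases i <;> fin_cases k <;>
        simp [s41hkRepMat, s16lbRepA, s16lbRepB, s16lbRepD, Matrix.mul_apply, Fin.sum_univ_two,
          hb', hd', mul_comm]
    · simp [s16lbRepA]

end Rep

end Fermat.Agent.S41
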