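import Fermat.Agent.S41.HK.Corr
import Fermat.Agent.S41.HK.IntMat

/-!
# S41, package HK: the degeneracy maps, the Atkin–Lehner involution and the Hecke operators
between the abelianisations of `Γ₀(N)` and `Γ₀(N q)`

Everything is an additive map between the abelianisations `s16lbAb M = Γ₀(M)^ab`; it acts on
characters `s16lbAb M →+ 𝔄` (ANY coefficient group `𝔄`) by precomposition.

* `s41hkIncl N q`, `s41hkDelta N q : Gamma0 (N * q) →* Gamma0 N`: the inclusion `a` and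
  `b : γ ↦ δ γ δ⁻¹`, `δ = diag(q, 1)`;  `s41hkA N q`, `s41hkB N q : s16lbAb (N * q) →+ s16lbAb N`.
* `s41hkT M ℓ h`, `s41hkU M q h`: the Hecke operators `T_ℓ` (`ℓ ∤ M`), `U_q` (`q ∣ M`) on `s16lbAb M`.
* `S41hkAL N q`: Atkin–Lehner data (`s, t` with `q t - N s = 1`); for `D : S41hkAL N q`:
  `D.mat = [q, 1; N q s, q t]`, `D.W : s16lbAb (N * q) →+ s16lbAb (N * q)` (conjugation by `D.mat`),
  `D.beta x` (`x : OnePoint (ZMod q)`) the representatives of `Γ₀(N q) \ Γ₀(N)` with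
  `D.mat * D.beta j = [1, j; 0, q]`, `D.Va : s16lbAb N →+ s16lbAb (N * q)` the transfer,
  `D.Vb = D.W ∘ D.Va`.
-/

set_option autoImplicit false

noncomputable section

namespace Fermat.Agent.S41

open P2MW.S_ModularForm_heckeT_slash_eq_self_of_mem_Gamma0.ModularForm.HeckeSlashInvariance
open ModularForm CongruenceSubgroup Matrix.SpecialLinearGroup Fermat.Agent.S16LB
open scoped MatrixGroups

/-! ### the correspondence attached to an `S16lbHeckeData` -/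

/-- an `S16lbHeckeData` as an `S41Corr` from `Γ` to itself. -/
def s41hkOfHecke {𝔾 Γ I : Type*} [Group 𝔾] [Group Γ] (H : S16lbHeckeData 𝔾 Γ I) :
    S41Corr 𝔾 Γ Γ I where
  ι₁ := H.ι
  ι₂ := H.ι
  hι₁ := H.hι
  α := H.α
  idx := H.idx
  coc := H.coc
  spec := H.spec
  idx_one i := (H.idx_one i).1
  idx_mul γ δ i := (H.idx_mul γ δ i).1

theorem s41hkOfHecke_trAb {𝔾 Γ I : Type*} [Group 𝔾] [Group Γ] [Fintype I]
    (H : S16lbHeckeData 𝔾 Γ I) : (s41hkOfHecke H).trAb = H.trEnd :=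
  S41Corr.ab_ext fun γ => by
    rw [S41Corr.trAb_of, S16lbHeckeData.trEnd_of]
    rfl

theorem s41hkOfHecke_distinct {𝔾 Γ I : Type*} [Group 𝔾] [Group Γ]
    (H : S16lbHeckeData 𝔾 Γ I) : (s41hkOfHecke H).Distinct := H.hun

/-! ### the Hecke operators -/

/-- `T_ℓ` on `Γ₀(M)^ab`, `ℓ ∤ M`. -/
def s41hkT (M ℓ : ℕ) [Fact ℓ.Prime] (h : ¬ ℓ ∣ M) : s16lbAb M →+ s16lbAb M :=
  (s16lbDataT M ℓ h).trEnd

/-- `U_q` on `Γ₀(M)^ab`, `q ∣ M`. -/
def s41hkU (M q : ℕ) [Fact q.Prime] (h : q ∣ M) : s16lbAb M →+ s16lbAb M :=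
  (s16lbDataU M q h).trEnd

/-! ### conjugation by an integer matrix -/

/-- `v` conjugates `Γ₀(M₂)` into `Γ₀(M₁)`. -/
def s41hkConjugates (v : Matrix (Fin 2) (Fin 2) ℤ) (M₁ M₂ : ℕ) : Prop :=
  ∀ γ : Gamma0 M₂, ∃ γ' : Gamma0 M₁,
    v * ((γ : SL(2, ℤ)) : Matrix (Fin 2) (Fin 2) ℤ)
      = ((γ' : SL(2, ℤ)) : Matrix (Fin 2) (Fin 2) ℤ) * v

/-- the conjugate `v γ v⁻¹ ∈ Γ₀(M₁)` of `γ ∈ Γ₀(M₂)`. -/
def s41hkConjFun {v : Matrix (Fin 2) (Fin 2) ℤ} {M₁ M₂ : ℕ} (hc : s41hkConjugates v M₁ M₂)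
    (γ : Gamma0 M₂) : Gamma0 M₁ := (hc γ).choose

theorem s41hkConjFun_spec {v : Matrix (Fin 2) (Fin 2) ℤ} {M₁ M₂ : ℕ}
    (hc : s41hkConjugates v M₁ M₂) (γ : Gamma0 M₂) :
    v * ((γ : SL(2, ℤ)) : Matrix (Fin 2) (Fin 2) ℤ)
      = ((s41hkConjFun hc γ : SL(2, ℤ)) : Matrix (Fin 2) (Fin 2) ℤ) * v := (hc γ).choose_spec

theorem s41hkConjFun_specGL {v : Matrix (Fin 2) (Fin 2) ℤ} (hv : v.det ≠ 0) {M₁ M₂ : ℕ}
    (hc : s41hkConjugates v M₁ M₂) (γ : Gamma0 M₂) :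
    s41hkGL v hv * s16lbIota M₂ γ = s16lbIota M₁ (s41hkConjFun hc γ) * s41hkGL v hv :=
  s41hk_conj_of_int hv hv (s41hkConjFun_spec hc γ)

/-- the conjugation correspondence. -/
def s41hkConjCorr {v : Matrix (Fin 2) (Fin 2) ℤ} (hv : v.det ≠ 0) {M₁ M₂ : ℕ}
    (hc : s41hkConjugates v M₁ M₂) : S41Corr (GL (Fin 2) ℝ) (Gamma0 M₁) (Gamma0 M₂) Unit :=
  S41Corr.conj (s16lbIota M₁) (s16lbIota M₂) (s16lbIota_injective M₁) (s41hkGL v hv)
    (s41hkConjFun hc) (s41hkConjFun_specGL hv hc)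

/-- conjugation by `v` as a map `Γ₀(M₂)^ab → Γ₀(M₁)^ab`. -/
def s41hkConjAb {v : Matrix (Fin 2) (Fin 2) ℤ} (hv : v.det ≠ 0) {M₁ M₂ : ℕ}
    (hc : s41hkConjugates v M₁ M₂) : s16lbAb M₂ →+ s16lbAb M₁ :=
  (s41hkConjCorr hv hc).trAb

theorem s41hkConjAb_of {v : Matrix (Fin 2) (Fin 2) ℤ} (hv : v.det ≠ 0) {M₁ M₂ : ℕ}
    (hc : s41hkConjugates v M₁ M₂) (γ : Gamma0 M₂) :
    s41hkConjAb hv hc (Additive.ofMul (Abelianization.of γ))
      = Additive.ofMul (Abelianization.of (s41hkConjFun hc γ)) :=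
  S41Corr.conj_trAb _ _ _ _ _ _ γ

/-- the conjugation as a group homomorphism. -/
def s41hkConjHom {v : Matrix (Fin 2) (Fin 2) ℤ} (hv : v.det ≠ 0) {M₁ M₂ : ℕ}
    (hc : s41hkConjugates v M₁ M₂) : Gamma0 M₂ →* Gamma0 M₁ where
  toFun := s41hkConjFun hc
  map_one' := by
    apply s16lbIota_injective M₁
    have h := s41hkConjFun_specGL hv hc 1
    rw [map_one, mul_one] at h
    rw [map_one]
    exact (mul_right_cancel (b := s41hkGL v hv) (by rw [one_mul]; exact h)).symm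
  map_mul' γ δ := by
    apply s16lbIota_injective M₁
    have h := s41hkConjFun_specGL hv hc (γ * δ)
    rw [map_mul, ← mul_assoc, s41hkConjFun_specGL hv hc γ, mul_assoc,
      s41hkConjFun_specGL hv hc δ, ← mul_assoc, ← map_mul] at h
    exact (mul_right_cancel h).symm

/-! ### the two degeneracy homomorphisms `Γ₀(N q) → Γ₀(N)` -/

section Degeneracy

variable (N q : ℕ)

theorem s41hk_Gamma0_mul_le : Gamma0 (N * q) ≤ Gamma0 N := fun _ hg =>
  s16lb_mem_Gamma0_of_dvd ((Int.natCast_dvd_natCast.mpr (dvd_mul_right N q)).trans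
    (s16lb_dvd_of_mem_Gamma0 hg))

/-- the inclusion `a : Γ₀(N q) → Γ₀(N)`. -/
def s41hkIncl : Gamma0 (N * q) →* Gamma0 N := Subgroup.inclusion (s41hk_Gamma0_mul_le N q)

@[simp] theorem s41hkIncl_coe (γ : Gamma0 (N * q)) :
    ((s41hkIncl N q γ : Gamma0 N) : SL(2, ℤ)) = (γ : SL(2, ℤ)) := rfl

theorem s41hkIota_incl (γ : Gamma0 (N * q)) :
    s16lbIota N (s41hkIncl N q γ) = s16lbIota (N * q) γ := rfl

/-- `a` on abelianisations: `A : Γ₀(N q)^ab → Γ₀(N)^ab`. -/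
def s41hkA : s16lbAb (N * q) →+ s16lbAb N :=
  (S41Corr.incl (s16lbIota N) (s16lbIota_injective N) (s41hkIncl N q)).trAb

theorem s41hkA_of (γ : Gamma0 (N * q)) :
    s41hkA N q (Additive.ofMul (Abelianization.of γ))
      = Additive.ofMul (Abelianization.of (s41hkIncl N q γ)) :=
  S41Corr.incl_trAb _ _ _ γ

/-- the matrix `δ = diag(q, 1)`. -/
def s41hkDeltaMat : Matrix (Fin 2) (Fin 2) ℤ := !![(q : ℤ), 0; 0, 1]

theorem s41hkDeltaMat_det : (s41hkDeltaMat q).det = q := by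
  rw [s41hkDeltaMat, Matrix.det_fin_two_of]; ring

theorem s41hkDeltaMat_det_ne_zero [NeZero q] : (s41hkDeltaMat q).det ≠ 0 := by
  rw [s41hkDeltaMat_det]
  exact_mod_cast NeZero.ne q

theorem s41hk_delta_conjugates : s41hkConjugates (s41hkDeltaMat q) N (N * q) := by
  intro γ
  have hd : ((N * q : ℕ) : ℤ) ∣ (γ : SL(2, ℤ)) 1 0 := s16lb_dvd_of_mem_Gamma0 γ.2
  obtain ⟨c, hc⟩ := hd
  have hdet := (γ : SL(2, ℤ)).det_coe
  rw [Matrix.det_fin_two] at hdet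
  refine ⟨⟨⟨!![(γ : SL(2, ℤ)) 0 0, q * (γ : SL(2, ℤ)) 0 1; N * c, (γ : SL(2, ℤ)) 1 1], ?_⟩,
    ?_⟩, ?_⟩
  · rw [Matrix.det_fin_two_of]
    have hc' : ((γ : SL(2, ℤ)) : Matrix (Fin 2) (Fin 2) ℤ) 1 0 = ((N * q : ℕ) : ℤ) * c := hc
    rw [hc'] at hdet
    push_cast at hdet
    linear_combination hdet
  · refine s16lb_mem_Gamma0_of_dvd ?_
    show (N : ℤ) ∣ (!![(γ : SL(2, ℤ)) 0 0, q * (γ : SL(2, ℤ)) 0 1; N * c, (γ : SL(2, ℤ)) 1 1] :
      Matrix (Fin 2) (Fin 2) ℤ) 1 0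
    simp
  · have hc' : ((γ : SL(2, ℤ)) : Matrix (Fin 2) (Fin 2) ℤ) 1 0 = ((N * q : ℕ) : ℤ) * c := hc
    ext i j
    fin_cases i <;> fin_cases j <;>
      simp [s41hkDeltaMat, Matrix.mul_apply, Fin.sum_univ_two, hc'] <;> ring

variable [NeZero q]

/-- `b : Γ₀(N q) → Γ₀(N)`, `γ ↦ δ γ δ⁻¹`. -/
def s41hkDelta : Gamma0 (N * q) →* Gamma0 N :=
  s41hkConjHom (s41hkDeltaMat_det_ne_zero q) (s41hk_delta_conjugates N q)

theorem s41hkDelta_spec (γ : Gamma0 (N * q)) :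
    s41hkDeltaMat q * ((γ : SL(2, ℤ)) : Matrix (Fin 2) (Fin 2) ℤ)
      = ((s41hkDelta N q γ : SL(2, ℤ)) : Matrix (Fin 2) (Fin 2) ℤ) * s41hkDeltaMat q :=
  s41hkConjFun_spec (s41hk_delta_conjugates N q) γ

/-- `b` on abelianisations: `B : Γ₀(N q)^ab → Γ₀(N)^ab`. -/
def s41hkB : s16lbAb (N * q) →+ s16lbAb N :=
  s41hkConjAb (s41hkDeltaMat_det_ne_zero q) (s41hk_delta_conjugates N q)

theorem s41hkB_of (γ : Gamma0 (N * q)) :
    s41hkB N q (Additive.ofMul (Abelianization.of γ))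
      = Additive.ofMul (Abelianization.of (s41hkDelta N q γ)) :=
  s41hkConjAb_of _ _ γ

end Degeneracy

/-! ### Atkin–Lehner matrices -/

/-- an Atkin–Lehner matrix `[q a, b; N q c, q d]` of determinant `q`. -/
structure S41hkALMat (N q : ℕ) where
  a : ℤ
  b : ℤ
  c : ℤ
  d : ℤ
  h : (q : ℤ) * a * d - N * b * c = 1

namespace S41hkALMat

variable {N q : ℕ} (v : S41hkALMat N q)

/-- the matrix. -/
def mat : Matrix (Fin 2) (Fin 2) ℤ := !![(q : ℤ) * v.a, v.b; N * q * v.c, q * v.d]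

theorem mat_det : v.mat.det = q := by
  rw [mat, Matrix.det_fin_two_of]
  linear_combination (q : ℤ) * v.h

theorem mat_det_ne_zero [NeZero q] : v.mat.det ≠ 0 := by
  rw [mat_det]
  exact_mod_cast NeZero.ne q

/-- the adjugate Atkin–Lehner matrix `[q d, -b; -N q c, q a] = q v⁻¹`. -/
def adj : S41hkALMat N q := ⟨v.d, -v.b, -v.c, v.a, by linear_combination v.h⟩

theorem mat_mul_adj : v.mat * v.adj.mat = (q : ℤ) • (1 : Matrix (Fin 2) (Fin 2) ℤ) := by
  ext i j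
  fin_cases i <;> fin_cases j <;>
    simp [mat, adj, Matrix.mul_apply, Fin.sum_univ_two] <;>
    first | ring1 | linear_combination (q : ℤ) * v.h

theorem adj_mat_mul : v.adj.mat * v.mat = (q : ℤ) • (1 : Matrix (Fin 2) (Fin 2) ℤ) := by
  ext i j
  fin_cases i <;> fin_cases j <;>
    simp [mat, adj, Matrix.mul_apply, Fin.sum_univ_two] <;>
    first | ring1 | linear_combination (q : ℤ) * v.h

/-- **conjugation by an Atkin–Lehner matrix** preserves the integer matrices whose lower left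
entry is divisible by `N q`. -/
theorem exists_conj (m : Matrix (Fin 2) (Fin 2) ℤ) (hm : ((N * q : ℕ) : ℤ) ∣ m 1 0) :
    ∃ m' : Matrix (Fin 2) (Fin 2) ℤ, v.mat * m = m' * v.mat ∧ ((N * q : ℕ) : ℤ) ∣ m' 1 0 := by
  obtain ⟨z, hz⟩ := hm
  push_cast at hz
  refine ⟨!![(v.a * m 0 0 + v.b * N * z) * q * v.d - (q * v.a * m 0 1 + v.b * m 1 1) * N * v.c,
      -(v.a * m 0 0 + v.b * N * z) * v.b + (q * v.a * m 0 1 + v.b * m 1 1) * v.a;
      N * q * (v.d * (v.c * m 0 0 + v.d * q * z) - v.c * (N * v.c * m 0 1 + v.d * m 1 1)),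
      -N * (v.c * m 0 0 + v.d * q * z) * v.b + (N * v.c * m 0 1 + v.d * m 1 1) * q * v.a],
    ?_, ?_⟩
  · ext i j
    fin_cases i <;> fin_cases j <;>
      simp only [mat, Matrix.mul_apply, Fin.sum_univ_two, Matrix.of_apply, Matrix.cons_val',
        Matrix.cons_val_zero, Matrix.cons_val_one, Matrix.cons_val_fin_one, Fin.zero_eta,
        Fin.mk_one, Fin.isValue, hz]
    · linear_combination (-((q : ℤ) * v.a * m 0 0 + v.b * (N * q * z))) * v.h
    · linear_combination (-((q : ℤ) * v.a * m 0 1 + v.b * m 1 1)) * v.h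
    · linear_combination (-((N : ℤ) * q * v.c * m 0 0 + q * v.d * (N * q * z))) * v.h
    · linear_combination (-((N : ℤ) * q * v.c * m 0 1 + q * v.d * m 1 1)) * v.h
  · push_cast
    exact ⟨_, by simp only [Matrix.of_apply, Matrix.cons_val', Matrix.cons_val_zero,
      Matrix.cons_val_one, Matrix.cons_val_fin_one]; rfl⟩

theorem conjugates [NeZero q] : s41hkConjugates v.mat (N * q) (N * q) := by
  intro γ
  obtain ⟨m', h1, h2⟩ := v.exists_conj ((γ : SL(2, ℤ)) : Matrix (Fin 2) (Fin 2) ℤ)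
    (s16lb_dvd_of_mem_Gamma0 γ.2)
  have hdet : m'.det = 1 := by
    have h3 := congrArg Matrix.det h1
    rw [Matrix.det_mul, Matrix.det_mul, (γ : SL(2, ℤ)).det_coe, mul_one] at h3
    have hq : v.mat.det ≠ 0 := v.mat_det_ne_zero
    have : m'.det * v.mat.det = 1 * v.mat.det := by rw [one_mul]; exact h3.symm
    exact mul_right_cancel₀ hq this
  exact ⟨⟨⟨m', hdet⟩, s16lb_mem_Gamma0_of_dvd h2⟩, h1⟩

end S41hkALMat

/-! ### Atkin–Lehner data, the involution `W` and the transfer `Va` -/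

/-- Atkin–Lehner data at `q ∤ N`: integers `s, t` with `q t - N s = 1`. -/
structure S41hkAL (N q : ℕ) where
  s : ℤ
  t : ℤ
  h : (q : ℤ) * t - N * s = 1

theorem s41hk_exists_AL (N q : ℕ) [Fact q.Prime] (hq : ¬ q ∣ N) : Nonempty (S41hkAL N q) := by
  have hcop : IsCoprime (q : ℤ) (N : ℤ) :=
    Nat.isCoprime_iff_coprime.mpr (((Fact.out : q.Prime).coprime_iff_not_dvd).mpr hq)
  obtain ⟨a, b, hab⟩ := hcop
  exact ⟨⟨-b, a, by linear_combination hab⟩⟩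

namespace S41hkAL

variable {N q : ℕ} (D : S41hkAL N q)

/-- the Atkin–Lehner matrix `w = [q, 1; N q s, q t]`. -/
def w : S41hkALMat N q := ⟨1, 1, D.s, D.t, by linear_combination D.h⟩

theorem w_mat : D.w.mat = !![(q : ℤ), 1; N * q * D.s, q * D.t] := by
  simp [S41hkALMat.mat, w]

/-- `q ∤ N s`. -/
theorem not_dvd_Ns (hq1 : q ≠ 1) : ¬ (q : ℤ) ∣ N * D.s := by
  intro hdvd
  have h1 : (q : ℤ) ∣ 1 := by
    have : (1 : ℤ) = q * D.t - N * D.s := D.h.symm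
    rw [this]
    exact dvd_sub (dvd_mul_right _ _) hdvd
  have h2 : q ∣ 1 := by exact_mod_cast h1
  exact hq1 (Nat.dvd_one.mp h2)

/-- the representatives of `Γ₀(N q) \ Γ₀(N)`, as integer matrices:
`β_∞ = 1`, `β_j = [t, t j - 1; -N s, q - N s j]`, so that `w β_j = [1, j; 0, q]`. -/
def betaMat (x : OnePoint (ZMod q)) : Matrix (Fin 2) (Fin 2) ℤ :=
  x.elim 1 (fun j => !![D.t, D.t * (j.val : ℤ) - 1; -(N * D.s), q - N * D.s * (j.val : ℤ)])

theorem betaMat_det (x : OnePoint (ZMod q)) : (D.betaMat x).det = 1 := by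
  induction x using OnePoint.rec with
  | infty => exact Matrix.det_one
  | coe j =>
    show (!![D.t, D.t * (j.val : ℤ) - 1; -(N * D.s), q - N * D.s * (j.val : ℤ)] :
      Matrix (Fin 2) (Fin 2) ℤ).det = 1
    rw [Matrix.det_fin_two_of]
    linear_combination D.h

theorem betaMat_dvd (x : OnePoint (ZMod q)) : (N : ℤ) ∣ (D.betaMat x) 1 0 := by
  induction x using OnePoint.rec with
  | infty =>
    show (N : ℤ) ∣ (1 : Matrix (Fin 2) (Fin 2) ℤ) 1 0
    simp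
  | coe j =>
    show (N : ℤ) ∣ (!![D.t, D.t * (j.val : ℤ) - 1; -(N * D.s), q - N * D.s * (j.val : ℤ)] :
      Matrix (Fin 2) (Fin 2) ℤ) 1 0
    simp

/-- the representatives of `Γ₀(N q) \ Γ₀(N)`, in `Γ₀(N)`. -/
def beta (x : OnePoint (ZMod q)) : Gamma0 N :=
  ⟨⟨D.betaMat x, D.betaMat_det x⟩, s16lb_mem_Gamma0_of_dvd (D.betaMat_dvd x)⟩

@[simp] theorem beta_coe (x : OnePoint (ZMod q)) :
    (((D.beta x : Gamma0 N) : SL(2, ℤ)) : Matrix (Fin 2) (Fin 2) ℤ) = D.betaMat x := rfl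

theorem beta_infty : D.beta (OnePoint.infty : OnePoint (ZMod q)) = 1 := by
  apply Subtype.ext
  apply Subtype.ext
  rfl

/-- `w β_x = g_x · heckeRep q x` with `g_x ∈ Γ₀(N)`: here for finite `x = j`, `g = 1`. -/
theorem w_mul_beta_coe (j : ZMod q) :
    D.w.mat * D.betaMat (j : OnePoint (ZMod q)) = s41hkRepMat q (j : OnePoint (ZMod q)) := by
  show D.w.mat * !![D.t, D.t * (j.val : ℤ) - 1; -(N * D.s), q - N * D.s * (j.val : ℤ)] = _
  rw [w_mat, s41hkRepMat]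
  ext i k
  fin_cases i <;> fin_cases k <;>
    simp [-ZMod.natCast_val, s16lbRepA, s16lbRepB, s16lbRepD, Matrix.mul_apply,
      Fin.sum_univ_two] <;>
    first | ring1 | linear_combination D.h | linear_combination (q : ℤ) * D.h |
      linear_combination ((j.val : ℤ)) * D.h

end S41hkAL

namespace S41hkAL

theorem isCoprime {N q : ℕ} (D : S41hkAL N q) : IsCoprime (N : ℤ) (q : ℤ) :=
  ⟨-D.s, D.t, by linear_combination D.h⟩

variable {N q : ℕ} (D : S41hkAL N q)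

variable [Fact q.Prime]

/-- **Lemma G** (completeness of the `β_x`): for every row `(c, d)` there is `x`
with `q ∣ ((c, d) β_x⁻¹)₀`. -/
theorem exists_beta_dvd (c d : ℤ) :
    ∃ x : OnePoint (ZMod q), (q : ℤ) ∣ c * (D.betaMat x) 1 1 - d * (D.betaMat x) 1 0 := by
  by_cases hc : (q : ℤ) ∣ c
  · refine ⟨OnePoint.infty, ?_⟩
    show (q : ℤ) ∣ c * (1 : Matrix (Fin 2) (Fin 2) ℤ) 1 1 - d * (1 : Matrix (Fin 2) (Fin 2) ℤ) 1 0
    simpa using hc
  · have hc0 : ((c : ℤ) : ZMod q) ≠ 0 := fun h0 =>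
      hc ((ZMod.intCast_zmod_eq_zero_iff_dvd _ _).mp h0)
    refine ⟨(((d : ZMod q) * (c : ZMod q)⁻¹ : ZMod q) : OnePoint (ZMod q)), ?_⟩
    set j : ZMod q := (d : ZMod q) * (c : ZMod q)⁻¹ with hj
    show (q : ℤ) ∣ c * (!![D.t, D.t * (j.val : ℤ) - 1; -(N * D.s), q - N * D.s * (j.val : ℤ)] :
        Matrix (Fin 2) (Fin 2) ℤ) 1 1
      - d * (!![D.t, D.t * (j.val : ℤ) - 1; -(N * D.s), q - N * D.s * (j.val : ℤ)] :
        Matrix (Fin 2) (Fin 2) ℤ) 1 0
    simp only [Matrix.of_apply, Matrix.cons_val', Matrix.cons_val_zero, Matrix.cons_val_one,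
      Matrix.cons_val_fin_one]
    rw [← ZMod.intCast_zmod_eq_zero_iff_dvd]
    push_cast
    rw [ZMod.natCast_zmod_val, ZMod.natCast_self, hj]
    field_simp
    ring

/-- distinctness of the cosets `Γ₀(N q) β_x`. -/
theorem beta_unique (x y : OnePoint (ZMod q))
    (h : (q : ℤ) ∣ (D.betaMat x) 1 0 * (D.betaMat y) 1 1 - (D.betaMat x) 1 1 * (D.betaMat y) 1 0) :
    x = y := by
  have hq1 : q ≠ 1 := (Fact.out : q.Prime).ne_one
  have hNs := D.not_dvd_Ns hq1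
  have hq : Prime (q : ℤ) := Nat.prime_iff_prime_int.mp Fact.out
  induction x using OnePoint.rec with
  | infty =>
    induction y using OnePoint.rec with
    | infty => rfl
    | coe j =>
      exfalso
      apply hNs
      have : (D.betaMat (OnePoint.infty : OnePoint (ZMod q))) 1 0
            * (D.betaMat (j : OnePoint (ZMod q))) 1 1
          - (D.betaMat (OnePoint.infty : OnePoint (ZMod q))) 1 1
            * (D.betaMat (j : OnePoint (ZMod q))) 1 0 = N * D.s := by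
        show (1 : Matrix (Fin 2) (Fin 2) ℤ) 1 0
            * (!![D.t, D.t * (j.val : ℤ) - 1; -(N * D.s), q - N * D.s * (j.val : ℤ)] :
              Matrix (Fin 2) (Fin 2) ℤ) 1 1
          - (1 : Matrix (Fin 2) (Fin 2) ℤ) 1 1
            * (!![D.t, D.t * (j.val : ℤ) - 1; -(N * D.s), q - N * D.s * (j.val : ℤ)] :
              Matrix (Fin 2) (Fin 2) ℤ) 1 0 = N * D.s
        simp
      rw [this] at h
      exact h
  | coe i =>
    induction y using OnePoint.rec with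
    | infty =>
      exfalso
      apply hNs
      have : (D.betaMat (i : OnePoint (ZMod q))) 1 0
            * (D.betaMat (OnePoint.infty : OnePoint (ZMod q))) 1 1
          - (D.betaMat (i : OnePoint (ZMod q))) 1 1
            * (D.betaMat (OnePoint.infty : OnePoint (ZMod q))) 1 0 = -(N * D.s) := by
        show (!![D.t, D.t * (i.val : ℤ) - 1; -(N * D.s), q - N * D.s * (i.val : ℤ)] :
              Matrix (Fin 2) (Fin 2) ℤ) 1 0 * (1 : Matrix (Fin 2) (Fin 2) ℤ) 1 1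
          - (!![D.t, D.t * (i.val : ℤ) - 1; -(N * D.s), q - N * D.s * (i.val : ℤ)] :
              Matrix (Fin 2) (Fin 2) ℤ) 1 1 * (1 : Matrix (Fin 2) (Fin 2) ℤ) 1 0 = -(N * D.s)
        simp
      rw [this] at h
      exact (dvd_neg.mp h)
    | coe j =>
      have : (D.betaMat (i : OnePoint (ZMod q))) 1 0 * (D.betaMat (j : OnePoint (ZMod q))) 1 1
          - (D.betaMat (i : OnePoint (ZMod q))) 1 1 * (D.betaMat (j : OnePoint (ZMod q))) 1 0
          = (N * D.s) * (N * D.s) * ((j.val : ℤ) - (i.val : ℤ)) := by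
        show (!![D.t, D.t * (i.val : ℤ) - 1; -(N * D.s), q - N * D.s * (i.val : ℤ)] :
              Matrix (Fin 2) (Fin 2) ℤ) 1 0
            * (!![D.t, D.t * (j.val : ℤ) - 1; -(N * D.s), q - N * D.s * (j.val : ℤ)] :
              Matrix (Fin 2) (Fin 2) ℤ) 1 1
          - (!![D.t, D.t * (i.val : ℤ) - 1; -(N * D.s), q - N * D.s * (i.val : ℤ)] :
              Matrix (Fin 2) (Fin 2) ℤ) 1 1
            * (!![D.t, D.t * (j.val : ℤ) - 1; -(N * D.s), q - N * D.s * (j.val : ℤ)] :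
              Matrix (Fin 2) (Fin 2) ℤ) 1 0 = _
        simp only [Matrix.of_apply, Matrix.cons_val', Matrix.cons_val_zero, Matrix.cons_val_one,
          Matrix.cons_val_fin_one]
        ring
      rw [this] at h
      have h2 : (q : ℤ) ∣ (j.val : ℤ) - (i.val : ℤ) := by
        rcases hq.dvd_or_dvd h with h1 | h1
        · rcases hq.dvd_or_dvd h1 with h0 | h0
          · exact absurd h0 hNs
          · exact absurd h0 hNs
        · exact h1
      have h3 := (ZMod.intCast_zmod_eq_zero_iff_dvd _ _).mpr h2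
      push_cast at h3
      rw [ZMod.natCast_zmod_val, ZMod.natCast_zmod_val, sub_eq_zero] at h3
      rw [h3]

end S41hkAL

namespace S41hkAL

variable {N q : ℕ} (D : S41hkAL N q) [Fact q.Prime]

omit [Fact q.Prime] in
theorem beta_mul_inv_apply (g : SL(2, ℤ)) (y : OnePoint (ZMod q)) :
    (g * ((D.beta y : Gamma0 N) : SL(2, ℤ))⁻¹) 1 0
      = g 1 0 * (D.betaMat y) 1 1 - g 1 1 * (D.betaMat y) 1 0 := by
  rw [Matrix.SpecialLinearGroup.coe_mul, Matrix.SpecialLinearGroup.SL2_inv_expl]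
  simp [Matrix.mul_apply, Fin.sum_univ_two]
  ring

/-- the transfer correspondence from `Γ₀(N q)` to `Γ₀(N)` with the representatives `β_x`. -/
def VaCorr : S41Corr (GL (Fin 2) ℝ) (Gamma0 (N * q)) (Gamma0 N) (OnePoint (ZMod q)) :=
  S41Corr.ofCosets (s16lbIota (N * q)) (s16lbIota N) (s16lbIota_injective (N * q))
    (fun x => s16lbIota N (D.beta x))
    (by
      intro γ x
      set g : Gamma0 N := D.beta x * γ with hg
      obtain ⟨y, hy⟩ := D.exists_beta_dvd ((g : SL(2, ℤ)) 1 0) ((g : SL(2, ℤ)) 1 1)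
      have hmem : (g * (D.beta y)⁻¹ : Gamma0 N).1 ∈ Gamma0 (N * q) := by
        refine s16lb_mem_Gamma0_of_dvd ?_
        have h1 : (N : ℤ) ∣ ((g * (D.beta y)⁻¹ : Gamma0 N) : SL(2, ℤ)) 1 0 :=
          s16lb_dvd_of_mem_Gamma0 (g * (D.beta y)⁻¹ : Gamma0 N).2
        have h2 : (q : ℤ) ∣ ((g * (D.beta y)⁻¹ : Gamma0 N) : SL(2, ℤ)) 1 0 := by
          have : ((g * (D.beta y)⁻¹ : Gamma0 N) : SL(2, ℤ))
              = (g : SL(2, ℤ)) * ((D.beta y : Gamma0 N) : SL(2, ℤ))⁻¹ := rfl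
          rw [this, D.beta_mul_inv_apply]
          exact hy
        push_cast
        exact D.isCoprime.mul_dvd h1 h2
      refine ⟨y, ⟨_, hmem⟩, ?_⟩
      have : s16lbIota (N * q) ⟨_, hmem⟩ = s16lbIota N (g * (D.beta y)⁻¹) := rfl
      rw [this, ← map_mul, ← map_mul, hg, inv_mul_cancel_right])
    (by
      intro x y γ' h
      have h1 : s16lbIota (N * q) γ' = s16lbIota N (s41hkIncl N q γ') := rfl
      rw [h1, ← map_mul] at h
      have h2 := s16lbIota_injective N h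
      have h3 : s41hkIncl N q γ' = D.beta x * (D.beta y)⁻¹ := by
        rw [h2, mul_inv_cancel_right]
      apply D.beta_unique
      have h4 : ((s41hkIncl N q γ' : Gamma0 N) : SL(2, ℤ)) 1 0
          = (D.betaMat x) 1 0 * (D.betaMat y) 1 1 - (D.betaMat x) 1 1 * (D.betaMat y) 1 0 := by
        rw [h3]
        exact D.beta_mul_inv_apply (D.beta x : Gamma0 N).1 y
      rw [← h4]
      have h5 : ((N * q : ℕ) : ℤ) ∣ ((γ' : Gamma0 (N * q)) : SL(2, ℤ)) 1 0 :=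
        s16lb_dvd_of_mem_Gamma0 γ'.2
      refine dvd_trans ?_ h5
      push_cast
      exact dvd_mul_left _ _)

theorem VaCorr_ι₁ : D.VaCorr.ι₁ = s16lbIota (N * q) := rfl

theorem VaCorr_ι₂ : D.VaCorr.ι₂ = s16lbIota N := rfl

theorem VaCorr_α (x : OnePoint (ZMod q)) : D.VaCorr.α x = s16lbIota N (D.beta x) := rfl

theorem VaCorr_distinct : D.VaCorr.Distinct := S41Corr.ofCosets_distinct _ _ _ _ _ _

/-- the transfer `Va : Γ₀(N)^ab → Γ₀(N q)^ab`. -/
def Va : s16lbAb N →+ s16lbAb (N * q) := D.VaCorr.trAb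

/-- the Atkin–Lehner involution `W : Γ₀(N q)^ab → Γ₀(N q)^ab`, `[γ] ↦ [w γ w⁻¹]`. -/
def W : s16lbAb (N * q) →+ s16lbAb (N * q) :=
  s41hkConjAb D.w.mat_det_ne_zero D.w.conjugates

/-- the second transfer `Vb = W ∘ Va : Γ₀(N)^ab → Γ₀(N q)^ab`. -/
def Vb : s16lbAb N →+ s16lbAb (N * q) := D.W.comp D.Va

end S41hkAL

/-! ### parabolic classes -/

/-- `γ ∈ Γ₀(M)` is parabolic or `±1`: `(tr γ)² = 4` (the condition of the Prelude's
`ModularCurve.Period.IsParabolicHom`). -/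
def s41hkIsPar {M : ℕ} (γ : Gamma0 M) : Prop :=
  (((γ : SL(2, ℤ)) : Matrix (Fin 2) (Fin 2) ℤ).trace) ^ 2 = 4

/-- the subgroup of `Γ₀(M)^ab` generated by the parabolic classes. -/
def s41hkPar (M : ℕ) : AddSubgroup (s16lbAb M) :=
  AddSubgroup.closure {x | ∃ γ : Gamma0 M, s41hkIsPar γ ∧ s16lbCls M (Additive.ofMul γ) = x}

/-- `Hom_par(Γ₀(M), 𝔄)`: the characters `Γ₀(M)^ab → 𝔄` killing the parabolic classes. -/
def s41hkHomPar (M : ℕ) (𝔄 : Type*) [AddCommGroup 𝔄] : AddSubgroup (s16lbAb M →+ 𝔄) where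
  carrier := {φ | ∀ γ : Gamma0 M, s41hkIsPar γ → φ (s16lbCls M (Additive.ofMul γ)) = 0}
  zero_mem' := fun _ _ => rfl
  add_mem' := by
    intro x y hx hy γ hγ
    rw [AddMonoidHom.add_apply, hx γ hγ, hy γ hγ, add_zero]
  neg_mem' := by
    intro x hx γ hγ
    rw [AddMonoidHom.neg_apply, hx γ hγ, neg_zero]

theorem s41hk_mem_homPar_iff_le_ker {M : ℕ} {𝔄 : Type*} [AddCommGroup 𝔄] (φ : s16lbAb M →+ 𝔄) :
    φ ∈ s41hkHomPar M 𝔄 ↔ s41hkPar M ≤ φ.ker := by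
  rw [s41hkPar, AddSubgroup.closure_le]
  constructor
  · rintro hx _ ⟨γ, hγ, rfl⟩
    exact hx γ hγ
  · intro hx γ hγ
    exact hx ⟨γ, hγ, rfl⟩

/-- bridge to the Prelude: `φ` is a parabolic character iff its descent to `Γ₀(M)^ab` lies in
`s41hkHomPar`. -/
theorem s41hk_isParabolicHom_iff {M : ℕ} {𝔄 : Type*} [AddCommGroup 𝔄]
    (φ : Additive (Gamma0 M) →+ 𝔄) :
    ModularCurve.Period.IsParabolicHom (Gamma0 M) φ ↔ s16lbDesc φ ∈ s41hkHomPar M 𝔄 := by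
  constructor
  · intro h γ hγ
    rw [s16lbDesc_cls]
    exact h γ hγ
  · intro h γ hγ
    have := h γ hγ
    rwa [s16lbDesc_cls] at this

end Fermat.Agent.S41
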