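import Fermat.Agent.S41.HK.Spec

/-!
# S41, package HK: the formal consequences (H10) of the leaves (H0)–(H9)

For a coefficient group `𝔄`, characters of `Γ₀(M)` are `s16lbAb M →+ 𝔄`; all operators act by
precomposition.

* `D.alpha 𝔄 : (s16lbAb N →+ 𝔄) × (s16lbAb N →+ 𝔄) →+ (s16lbAb (N * q) →+ 𝔄)`,
  `(φ₁, φ₂) ↦ φ₁ ∘ A + φ₂ ∘ B` and `D.alphaT 𝔄`, `ψ ↦ (ψ ∘ Va, ψ ∘ Vb)`.
* `s41hk_alphaT_alpha`: `α^t α (φ₁, φ₂) = ((q+1) φ₁ + φ₂ ∘ T_q, φ₁ ∘ T_q + (q+1) φ₂)`.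
* `s41hk_alpha_T`, `s41hk_alphaT_T`: Hecke equivariance (`ℓ ∤ N q`).
* on `ker α^t`: `s41hk_ker_U` (`ψ ∘ U_q = - ψ ∘ W`), `s41hk_ker_UU` (`ψ ∘ U_q ∘ U_q = ψ`),
  `s41hk_ker_stable_U`, `s41hk_ker_stable_T`.
* `s41hk*_mem_par`, `s41hk_comp_*_mem_homPar`: all maps preserve the parabolic subgroups, resp.
  `Hom_par`.
-/

set_option autoImplicit false

noncomputable section

namespace Fermat.Agent.S41

open P2MW.S_ModularForm_heckeT_slash_eq_self_of_mem_Gamma0.ModularForm.HeckeSlashInvariance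
open ModularForm CongruenceSubgroup Matrix.SpecialLinearGroup Fermat.Agent.S16LB Fermat.Agent.G
open scoped MatrixGroups

section

variable {N q : ℕ} [Fact q.Prime] (D : S41hkAL N q)

/-! ### identities between the maps on abelianisations -/

/-- `B ∘ Va = T_q`. -/
theorem s41hk_B_comp_Va (hq : ¬ q ∣ N) : (s41hkB N q).comp D.Va = s41hkT N q hq := by
  rw [s41hk_B_eq D, AddMonoidHom.comp_assoc, s41hk_A_comp_W_comp_Va D hq]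

/-- `A ∘ Vb = T_q`. -/
theorem s41hk_A_comp_Vb (hq : ¬ q ∣ N) : (s41hkA N q).comp D.Vb = s41hkT N q hq :=
  s41hk_A_comp_W_comp_Va D hq

/-- `B ∘ Vb = q + 1`. -/
theorem s41hk_B_comp_Vb :
    (s41hkB N q).comp D.Vb = (q + 1) • AddMonoidHom.id (s16lbAb N) := by
  rw [s41hk_B_eq D, S41hkAL.Vb, AddMonoidHom.comp_assoc, ← AddMonoidHom.comp_assoc D.Va D.W D.W,
    s41hk_W_comp_W, AddMonoidHom.id_comp, s41hk_A_comp_Va]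

/-- `Va ∘ A = 1 + W ∘ U_q`. -/
theorem s41hk_Va_comp_A :
    D.Va.comp (s41hkA N q)
      = AddMonoidHom.id _ + D.W.comp (s41hkU (N * q) q (dvd_mul_left q N)) := by
  have h : D.W.comp (D.W.comp (D.Va.comp (s41hkA N q)))
      = D.W.comp (D.W + s41hkU (N * q) q (dvd_mul_left q N)) :=
    congrArg (fun f => D.W.comp f) (s41hk_W_comp_Va_comp_A D)
  rw [← AddMonoidHom.comp_assoc, s41hk_W_comp_W, AddMonoidHom.id_comp] at h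
  rw [h]
  refine AddMonoidHom.ext fun x => ?_
  rw [AddMonoidHom.comp_apply, AddMonoidHom.add_apply, AddMonoidHom.add_apply, map_add,
    AddMonoidHom.id_apply, AddMonoidHom.comp_apply, ← AddMonoidHom.comp_apply D.W D.W,
    s41hk_W_comp_W, AddMonoidHom.id_apply]

variable (ℓ : ℕ) [Fact ℓ.Prime] (hℓ : ¬ ℓ ∣ N * q) (hℓ' : ¬ ℓ ∣ N)

/-- `B ∘ T'_ℓ = T_ℓ ∘ B`. -/
theorem s41hk_B_comp_T (hq : ¬ q ∣ N) :
    (s41hkB N q).comp (s41hkT (N * q) ℓ hℓ) = (s41hkT N ℓ hℓ').comp (s41hkB N q) := by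
  obtain ⟨D⟩ := s41hk_exists_AL N q hq
  rw [s41hk_B_eq D, AddMonoidHom.comp_assoc, s41hk_W_comp_T D ℓ hℓ, ← AddMonoidHom.comp_assoc,
    s41hk_A_comp_T ℓ hℓ hℓ', AddMonoidHom.comp_assoc]

/-- `Vb ∘ T_ℓ = T'_ℓ ∘ Vb`. -/
theorem s41hk_Vb_comp_T :
    D.Vb.comp (s41hkT N ℓ hℓ') = (s41hkT (N * q) ℓ hℓ).comp D.Vb := by
  rw [S41hkAL.Vb, AddMonoidHom.comp_assoc, s41hk_Va_comp_T D ℓ hℓ hℓ', ← AddMonoidHom.comp_assoc,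
    s41hk_W_comp_T D ℓ hℓ, AddMonoidHom.comp_assoc]

end

/-! ### the maps `α`, `α^t` on characters -/

section Characters

variable (N q : ℕ) [Fact q.Prime] (𝔄 : Type*) [AddCommGroup 𝔄]

/-- `α = a^* + b^* : Hom(Γ₀(N), 𝔄)² → Hom(Γ₀(N q), 𝔄)`, `(φ₁, φ₂) ↦ φ₁ ∘ A + φ₂ ∘ B`. -/
def s41hkAlpha :
    (s16lbAb N →+ 𝔄) × (s16lbAb N →+ 𝔄) →+ (s16lbAb (N * q) →+ 𝔄) :=
  (AddMonoidHom.compHom' (s41hkA N q)).coprod (AddMonoidHom.compHom' (s41hkB N q))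

theorem s41hkAlpha_apply (φ₁ φ₂ : s16lbAb N →+ 𝔄) :
    s41hkAlpha N q 𝔄 (φ₁, φ₂) = φ₁.comp (s41hkA N q) + φ₂.comp (s41hkB N q) := rfl

variable {N q} (D : S41hkAL N q)

/-- `α^t = (a_*, b_*) : Hom(Γ₀(N q), 𝔄) → Hom(Γ₀(N), 𝔄)²`, `ψ ↦ (ψ ∘ Va, ψ ∘ Vb)`. -/
def S41hkAL.alphaT :
    (s16lbAb (N * q) →+ 𝔄) →+ (s16lbAb N →+ 𝔄) × (s16lbAb N →+ 𝔄) :=
  (AddMonoidHom.compHom' D.Va).prod (AddMonoidHom.compHom' D.Vb)

variable {𝔄}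

theorem S41hkAL.alphaT_apply (ψ : s16lbAb (N * q) →+ 𝔄) :
    D.alphaT 𝔄 ψ = (ψ.comp D.Va, ψ.comp D.Vb) := rfl

theorem S41hkAL.alphaT_eq_zero_iff (ψ : s16lbAb (N * q) →+ 𝔄) :
    D.alphaT 𝔄 ψ = 0 ↔ ψ.comp D.Va = 0 ∧ ψ.comp D.Vb = 0 := by
  rw [D.alphaT_apply, Prod.mk_eq_zero]

/-- `α^t α = [[q+1, T_q], [T_q, q+1]]`. -/
theorem s41hk_alphaT_alpha (hq : ¬ q ∣ N) (φ₁ φ₂ : s16lbAb N →+ 𝔄) :
    D.alphaT 𝔄 (s41hkAlpha N q 𝔄 (φ₁, φ₂))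
      = ((q + 1) • φ₁ + φ₂.comp (s41hkT N q hq), φ₁.comp (s41hkT N q hq) + (q + 1) • φ₂) := by
  rw [D.alphaT_apply, s41hkAlpha_apply]
  refine Prod.ext ?_ ?_
  · show (φ₁.comp (s41hkA N q) + φ₂.comp (s41hkB N q)).comp D.Va = _
    rw [AddMonoidHom.add_comp, AddMonoidHom.comp_assoc, AddMonoidHom.comp_assoc,
      s41hk_A_comp_Va, s41hk_B_comp_Va D hq]
    congr 1
    refine AddMonoidHom.ext fun x => ?_
    simp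
  · show (φ₁.comp (s41hkA N q) + φ₂.comp (s41hkB N q)).comp D.Vb = _
    rw [AddMonoidHom.add_comp, AddMonoidHom.comp_assoc, AddMonoidHom.comp_assoc,
      s41hk_A_comp_Vb D hq, s41hk_B_comp_Vb]
    congr 1
    refine AddMonoidHom.ext fun x => ?_
    simp

variable (ℓ : ℕ) [Fact ℓ.Prime] (hℓ : ¬ ℓ ∣ N * q) (hℓ' : ¬ ℓ ∣ N)

/-- `α` is `T_ℓ`-equivariant. -/
theorem s41hk_alpha_T (hq : ¬ q ∣ N) (φ₁ φ₂ : s16lbAb N →+ 𝔄) :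
    (s41hkAlpha N q 𝔄 (φ₁, φ₂)).comp (s41hkT (N * q) ℓ hℓ)
      = s41hkAlpha N q 𝔄 (φ₁.comp (s41hkT N ℓ hℓ'), φ₂.comp (s41hkT N ℓ hℓ')) := by
  rw [s41hkAlpha_apply, s41hkAlpha_apply, AddMonoidHom.add_comp, AddMonoidHom.comp_assoc,
    AddMonoidHom.comp_assoc, s41hk_A_comp_T ℓ hℓ hℓ', s41hk_B_comp_T ℓ hℓ hℓ' hq,
    AddMonoidHom.comp_assoc, AddMonoidHom.comp_assoc]

/-- `α^t` is `T_ℓ`-equivariant. -/
theorem s41hk_alphaT_T (ψ : s16lbAb (N * q) →+ 𝔄) :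
    D.alphaT 𝔄 (ψ.comp (s41hkT (N * q) ℓ hℓ))
      = ((D.alphaT 𝔄 ψ).1.comp (s41hkT N ℓ hℓ'), (D.alphaT 𝔄 ψ).2.comp (s41hkT N ℓ hℓ')) := by
  rw [D.alphaT_apply, D.alphaT_apply]
  refine Prod.ext ?_ ?_
  · show (ψ.comp (s41hkT (N * q) ℓ hℓ)).comp D.Va = (ψ.comp D.Va).comp (s41hkT N ℓ hℓ')
    rw [AddMonoidHom.comp_assoc, AddMonoidHom.comp_assoc, s41hk_Va_comp_T D ℓ hℓ hℓ']
  · show (ψ.comp (s41hkT (N * q) ℓ hℓ)).comp D.Vb = (ψ.comp D.Vb).comp (s41hkT N ℓ hℓ')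
    rw [AddMonoidHom.comp_assoc, AddMonoidHom.comp_assoc, s41hk_Vb_comp_T D ℓ hℓ hℓ']

/-! ### the kernel of `α^t` (the `q`-new part) -/

/-- `ker α^t` is stable under `T_ℓ`. -/
theorem s41hk_ker_stable_T {ψ : s16lbAb (N * q) →+ 𝔄} (hψ : D.alphaT 𝔄 ψ = 0) :
    D.alphaT 𝔄 (ψ.comp (s41hkT (N * q) ℓ hℓ)) = 0 := by
  have hℓ' : ¬ ℓ ∣ N := fun h => hℓ (dvd_mul_of_dvd_left h q)
  rw [s41hk_alphaT_T D ℓ hℓ hℓ', hψ]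
  rfl

omit ℓ in
/-- `ker α^t` is stable under `W`. -/
theorem s41hk_ker_stable_W {ψ : s16lbAb (N * q) →+ 𝔄} (hψ : D.alphaT 𝔄 ψ = 0) :
    D.alphaT 𝔄 (ψ.comp D.W) = 0 := by
  rw [D.alphaT_eq_zero_iff] at hψ ⊢
  obtain ⟨h1, h2⟩ := hψ
  refine ⟨?_, ?_⟩
  · rw [AddMonoidHom.comp_assoc]
    exact h2
  · rw [S41hkAL.Vb, AddMonoidHom.comp_assoc, ← AddMonoidHom.comp_assoc D.Va D.W D.W,
      s41hk_W_comp_W, AddMonoidHom.id_comp]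
    exact h1

omit ℓ in
/-- on `ker α^t`: `U_q = - W`. -/
theorem s41hk_ker_U {ψ : s16lbAb (N * q) →+ 𝔄} (hψ : D.alphaT 𝔄 ψ = 0) :
    ψ.comp (s41hkU (N * q) q (dvd_mul_left q N)) = -(ψ.comp D.W) := by
  rw [D.alphaT_eq_zero_iff] at hψ
  obtain ⟨-, h2⟩ := hψ
  have h3 : ψ.comp (D.W.comp (D.Va.comp (s41hkA N q))) = 0 := by
    show (ψ.comp (D.W.comp D.Va)).comp (s41hkA N q) = 0
    have : ψ.comp (D.W.comp D.Va) = 0 := h2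
    rw [this, AddMonoidHom.zero_comp]
  rw [s41hk_W_comp_Va_comp_A, AddMonoidHom.comp_add] at h3
  exact eq_neg_of_add_eq_zero_right h3

omit ℓ in
/-- on `ker α^t`: `U_q² = 1`. -/
theorem s41hk_ker_UU {ψ : s16lbAb (N * q) →+ 𝔄} (hψ : D.alphaT 𝔄 ψ = 0) :
    (ψ.comp (s41hkU (N * q) q (dvd_mul_left q N))).comp (s41hkU (N * q) q (dvd_mul_left q N))
      = ψ := by
  have h1 := s41hk_ker_U D hψ
  have h2 := s41hk_ker_U D (s41hk_ker_stable_W D hψ)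
  rw [h1, AddMonoidHom.neg_comp, h2, neg_neg, AddMonoidHom.comp_assoc, s41hk_W_comp_W,
    AddMonoidHom.comp_id]

omit ℓ in
/-- `ker α^t` is stable under `U_q`. -/
theorem s41hk_ker_stable_U {ψ : s16lbAb (N * q) →+ 𝔄} (hψ : D.alphaT 𝔄 ψ = 0) :
    D.alphaT 𝔄 (ψ.comp (s41hkU (N * q) q (dvd_mul_left q N))) = 0 := by
  rw [s41hk_ker_U D hψ, map_neg, s41hk_ker_stable_W D hψ, neg_zero]

end Characters

/-! ### stability of the parabolic (and parabolic + elliptic) subgroups -/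

section Stable

theorem s41hkT_mem_par (M ℓ : ℕ) [Fact ℓ.Prime] (h : ¬ ℓ ∣ M) {x : s16lbAb M}
    (hx : x ∈ s41hkPar M) : s41hkT M ℓ h x ∈ s41hkPar M := by
  have := s41hk_trAb_mem_par (s41hkOfHecke (s16lbDataT M ℓ h)) rfl rfl hx
  rwa [s41hkOfHecke_trAb] at this

theorem s41hkT_mem_PE (M ℓ : ℕ) [Fact ℓ.Prime] (h : ¬ ℓ ∣ M) {x : s16lbAb M}
    (hx : x ∈ gprPE M) : s41hkT M ℓ h x ∈ gprPE M := by
  have := s41hk_trAb_mem_PE (s41hkOfHecke (s16lbDataT M ℓ h)) rfl rfl hx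
  rwa [s41hkOfHecke_trAb] at this

theorem s41hkU_mem_par (M q : ℕ) [Fact q.Prime] (h : q ∣ M) {x : s16lbAb M}
    (hx : x ∈ s41hkPar M) : s41hkU M q h x ∈ s41hkPar M := by
  have := s41hk_trAb_mem_par (s41hkOfHecke (s16lbDataU M q h)) rfl rfl hx
  rwa [s41hkOfHecke_trAb] at this

theorem s41hkU_mem_PE (M q : ℕ) [Fact q.Prime] (h : q ∣ M) {x : s16lbAb M}
    (hx : x ∈ gprPE M) : s41hkU M q h x ∈ gprPE M := by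
  have := s41hk_trAb_mem_PE (s41hkOfHecke (s16lbDataU M q h)) rfl rfl hx
  rwa [s41hkOfHecke_trAb] at this

theorem s41hkConjAb_mem_par {v : Matrix (Fin 2) (Fin 2) ℤ} (hv : v.det ≠ 0) {M₁ M₂ : ℕ}
    (hc : s41hkConjugates v M₁ M₂) {x : s16lbAb M₂} (hx : x ∈ s41hkPar M₂) :
    s41hkConjAb hv hc x ∈ s41hkPar M₁ :=
  s41hk_trAb_mem_par (s41hkConjCorr hv hc) rfl rfl hx

theorem s41hkConjAb_mem_PE {v : Matrix (Fin 2) (Fin 2) ℤ} (hv : v.det ≠ 0) {M₁ M₂ : ℕ}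
    (hc : s41hkConjugates v M₁ M₂) {x : s16lbAb M₂} (hx : x ∈ gprPE M₂) :
    s41hkConjAb hv hc x ∈ gprPE M₁ :=
  s41hk_trAb_mem_PE (s41hkConjCorr hv hc) rfl rfl hx

variable {N q : ℕ} [Fact q.Prime] (D : S41hkAL N q)

omit [Fact q.Prime] in
theorem s41hkA_mem_par {x : s16lbAb (N * q)} (hx : x ∈ s41hkPar (N * q)) :
    s41hkA N q x ∈ s41hkPar N :=
  s41hk_trAb_mem_par (S41Corr.incl (s16lbIota N) (s16lbIota_injective N) (s41hkIncl N q))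
    rfl rfl hx

omit [Fact q.Prime] in
theorem s41hkA_mem_PE {x : s16lbAb (N * q)} (hx : x ∈ gprPE (N * q)) :
    s41hkA N q x ∈ gprPE N :=
  s41hk_trAb_mem_PE (S41Corr.incl (s16lbIota N) (s16lbIota_injective N) (s41hkIncl N q))
    rfl rfl hx

theorem s41hkB_mem_par {x : s16lbAb (N * q)} (hx : x ∈ s41hkPar (N * q)) :
    s41hkB N q x ∈ s41hkPar N := s41hkConjAb_mem_par _ _ hx

theorem s41hkB_mem_PE {x : s16lbAb (N * q)} (hx : x ∈ gprPE (N * q)) :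
    s41hkB N q x ∈ gprPE N := s41hkConjAb_mem_PE _ _ hx

theorem S41hkAL.W_mem_par {x : s16lbAb (N * q)} (hx : x ∈ s41hkPar (N * q)) :
    D.W x ∈ s41hkPar (N * q) := s41hkConjAb_mem_par _ _ hx

theorem S41hkAL.W_mem_PE {x : s16lbAb (N * q)} (hx : x ∈ gprPE (N * q)) :
    D.W x ∈ gprPE (N * q) := s41hkConjAb_mem_PE _ _ hx

theorem S41hkAL.Va_mem_par {x : s16lbAb N} (hx : x ∈ s41hkPar N) :
    D.Va x ∈ s41hkPar (N * q) := s41hk_trAb_mem_par D.VaCorr rfl rfl hx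

theorem S41hkAL.Va_mem_PE {x : s16lbAb N} (hx : x ∈ gprPE N) :
    D.Va x ∈ gprPE (N * q) := s41hk_trAb_mem_PE D.VaCorr rfl rfl hx

theorem S41hkAL.Vb_mem_par {x : s16lbAb N} (hx : x ∈ s41hkPar N) :
    D.Vb x ∈ s41hkPar (N * q) := D.W_mem_par (D.Va_mem_par hx)

theorem S41hkAL.Vb_mem_PE {x : s16lbAb N} (hx : x ∈ gprPE N) :
    D.Vb x ∈ gprPE (N * q) := D.W_mem_PE (D.Va_mem_PE hx)

/-- precomposition with a map preserving the parabolic subgroups preserves `Hom_par`. -/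
theorem s41hk_comp_mem_homPar {M₁ M₂ : ℕ} {𝔄 : Type*} [AddCommGroup 𝔄]
    (f : s16lbAb M₂ →+ s16lbAb M₁) (hf : ∀ x ∈ s41hkPar M₂, f x ∈ s41hkPar M₁)
    {φ : s16lbAb M₁ →+ 𝔄} (hφ : φ ∈ s41hkHomPar M₁ 𝔄) : φ.comp f ∈ s41hkHomPar M₂ 𝔄 := by
  rw [s41hk_mem_homPar_iff_le_ker] at hφ ⊢
  intro x hx
  exact hφ (hf x hx)

/-- precomposition with a map preserving `gprPE` preserves `Hom_pe`. -/
theorem s41hk_comp_mem_homPE {M₁ M₂ : ℕ} {𝔄 : Type*} [AddCommGroup 𝔄]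
    (f : s16lbAb M₂ →+ s16lbAb M₁) (hf : ∀ x ∈ gprPE M₂, f x ∈ gprPE M₁)
    {φ : s16lbAb M₁ →+ 𝔄} (hφ : φ ∈ gprHomPE M₁ 𝔄) : φ.comp f ∈ gprHomPE M₂ 𝔄 := by
  rw [gpr_mem_homPE_iff_le_ker] at hφ ⊢
  intro x hx
  exact hφ (hf x hx)

end Stable

/-! ### consumer forms with the total operators `gprT M ℓ` (junk value `0` unless `ℓ` is a prime
not dividing `M`) -/

section Consumer

/-- Atkin–Lehner data exist only for `q ∤ N`. -/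
theorem S41hkAL.not_dvd {N q : ℕ} [Fact q.Prime] (D : S41hkAL N q) : ¬ q ∣ N := by
  intro hdvd
  have h1 : (q : ℤ) ∣ 1 := by
    have : (1 : ℤ) = q * D.t - N * D.s := D.h.symm
    rw [this]
    exact dvd_sub (dvd_mul_right _ _) (dvd_mul_of_dvd_left (Int.natCast_dvd_natCast.mpr hdvd) _)
  have h2 : q ∣ 1 := by exact_mod_cast h1
  exact (Fact.out : q.Prime).ne_one (Nat.dvd_one.mp h2)

theorem s41hkT_eq_gprT (M ℓ : ℕ) [Fact ℓ.Prime] (h : ¬ ℓ ∣ M) : s41hkT M ℓ h = gprT M ℓ :=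
  (gprT_eq M h).symm

variable {N q : ℕ} [Fact q.Prime] (D : S41hkAL N q)

/-- `B ∘ Va = T_q` -/
theorem s41hk_B_comp_Va' : (s41hkB N q).comp D.Va = gprT N q := by
  rw [s41hk_B_comp_Va D D.not_dvd, s41hkT_eq_gprT]

/-- `A ∘ Vb = T_q` -/
theorem s41hk_A_comp_Vb' : (s41hkA N q).comp D.Vb = gprT N q := by
  rw [s41hk_A_comp_Vb D D.not_dvd, s41hkT_eq_gprT]

variable {ℓ : ℕ} (hℓ : ℓ.Prime) (hℓNq : ¬ ℓ ∣ N * q)

include hℓ hℓNq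

omit D in
theorem s41hk_A_comp_gprT :
    (s41hkA N q).comp (gprT (N * q) ℓ) = (gprT N ℓ).comp (s41hkA N q) := by
  have : Fact ℓ.Prime := ⟨hℓ⟩
  have hℓN : ¬ ℓ ∣ N := fun h => hℓNq (dvd_mul_of_dvd_left h q)
  rw [← s41hkT_eq_gprT _ _ hℓNq, ← s41hkT_eq_gprT _ _ hℓN]
  exact s41hk_A_comp_T ℓ hℓNq hℓN

omit D in
theorem s41hk_B_comp_gprT (hq : ¬ q ∣ N) :
    (s41hkB N q).comp (gprT (N * q) ℓ) = (gprT N ℓ).comp (s41hkB N q) := by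
  have : Fact ℓ.Prime := ⟨hℓ⟩
  have hℓN : ¬ ℓ ∣ N := fun h => hℓNq (dvd_mul_of_dvd_left h q)
  rw [← s41hkT_eq_gprT _ _ hℓNq, ← s41hkT_eq_gprT _ _ hℓN]
  exact s41hk_B_comp_T ℓ hℓNq hℓN hq

theorem s41hk_Va_comp_gprT :
    D.Va.comp (gprT N ℓ) = (gprT (N * q) ℓ).comp D.Va := by
  have : Fact ℓ.Prime := ⟨hℓ⟩
  have hℓN : ¬ ℓ ∣ N := fun h => hℓNq (dvd_mul_of_dvd_left h q)
  rw [← s41hkT_eq_gprT _ _ hℓNq, ← s41hkT_eq_gprT _ _ hℓN]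
  exact s41hk_Va_comp_T D ℓ hℓNq hℓN

theorem s41hk_Vb_comp_gprT :
    D.Vb.comp (gprT N ℓ) = (gprT (N * q) ℓ).comp D.Vb := by
  have : Fact ℓ.Prime := ⟨hℓ⟩
  have hℓN : ¬ ℓ ∣ N := fun h => hℓNq (dvd_mul_of_dvd_left h q)
  rw [← s41hkT_eq_gprT _ _ hℓNq, ← s41hkT_eq_gprT _ _ hℓN]
  exact s41hk_Vb_comp_T D ℓ hℓNq hℓN

theorem s41hk_W_comp_gprT :
    D.W.comp (gprT (N * q) ℓ) = (gprT (N * q) ℓ).comp D.W := by
  have : Fact ℓ.Prime := ⟨hℓ⟩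
  rw [← s41hkT_eq_gprT _ _ hℓNq]
  exact s41hk_W_comp_T D ℓ hℓNq

omit D in
theorem s41hk_U_comp_gprT :
    (s41hkU (N * q) q (dvd_mul_left q N)).comp (gprT (N * q) ℓ)
      = (gprT (N * q) ℓ).comp (s41hkU (N * q) q (dvd_mul_left q N)) := by
  have : Fact ℓ.Prime := ⟨hℓ⟩
  rw [← s41hkT_eq_gprT _ _ hℓNq]
  exact s41hk_U_comp_T ℓ hℓNq

end Consumer

end Fermat.Agent.S41
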