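import Fermat.Agent.S41.HK.Defs

/-!
# S41, package HK, leaf (H8): `U_q ∘ T'_ℓ = T'_ℓ ∘ U_q` on `Γ₀(N q)^ab`

Both composites are `trAb` of a composite correspondence (`S41Corr.comp_trAb`); the representatives
are the upper triangular integer matrices `u_j h_y = [A_y, B_y + j D_y; 0, q D_y]` resp.
`h_y u_j = [A_y, A_y j + B_y q; 0, D_y q]`.  Two upper triangular integer matrices with positive
upper left entries lie in the same `Γ₀(N q)`-coset iff they have the same diagonal and the upper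
right entries are congruent modulo the lower right entry; so the two families run over the same
`q (ℓ + 1)` distinct cosets, and the matching lemma `S41Corr.trAb_eq_of_matching` applies.
-/

set_option autoImplicit false

noncomputable section

namespace Fermat.Agent.S41

open P2MW.S_ModularForm_heckeT_slash_eq_self_of_mem_Gamma0.ModularForm.HeckeSlashInvariance
open ModularForm CongruenceSubgroup Matrix.SpecialLinearGroup Fermat.Agent.S16LB
open scoped MatrixGroups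

/-! ### upper triangular integer matrices and translations -/

/-- the upper triangular matrix `[a, b; 0, d]`. -/
def s41hkuctTri (a b d : ℤ) : Matrix (Fin 2) (Fin 2) ℤ := !![a, b; 0, d]

theorem s41hkuct_tri_det (a b d : ℤ) : (s41hkuctTri a b d).det = a * d := by
  rw [s41hkuctTri, Matrix.det_fin_two_of]; ring

theorem s41hkuct_tri_det_ne_zero {a b d : ℤ} (ha : a ≠ 0) (hd : d ≠ 0) :
    (s41hkuctTri a b d).det ≠ 0 := by
  rw [s41hkuct_tri_det]; exact mul_ne_zero ha hd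

theorem s41hkuct_tri_mul (a b d a' b' d' : ℤ) :
    s41hkuctTri a b d * s41hkuctTri a' b' d' = s41hkuctTri (a * a') (a * b' + b * d') (d * d') := by
  ext i j
  fin_cases i <;> fin_cases j <;> simp [s41hkuctTri, Matrix.mul_apply, Fin.sum_univ_two]

/-- the translation `[1, n; 0, 1] ∈ Γ₀(M)`. -/
def s41hkuctTr (M : ℕ) (n : ℤ) : Gamma0 M :=
  ⟨⟨!![1, n; 0, 1], by rw [Matrix.det_fin_two_of]; ring⟩, s16lb_mem_Gamma0_of_dvd (by
    show (M : ℤ) ∣ (!![1, n; 0, 1] : Matrix (Fin 2) (Fin 2) ℤ) 1 0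
    simp)⟩

/-- translating the upper right entry by a multiple of the lower right entry stays in the coset. -/
theorem s41hkuct_translate (M : ℕ) {a b b' d : ℤ} (n : ℤ) (hb : b' = b + n * d)
    (h : (s41hkuctTri a b d).det ≠ 0) (h' : (s41hkuctTri a b' d).det ≠ 0) :
    s41hkGL (s41hkuctTri a b' d) h'
      = s16lbIota M (s41hkuctTr M n) * s41hkGL (s41hkuctTri a b d) h := by
  have key := s41hk_conj_of_int (m := s41hkuctTri a b' d) (m' := s41hkuctTri a b d) h' h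
    (g := 1) (g' := ((s41hkuctTr M n : Gamma0 M) : SL(2, ℤ))) (by
      subst hb
      show s41hkuctTri a (b + n * d) d * ((1 : SL(2, ℤ)) : Matrix (Fin 2) (Fin 2) ℤ)
        = !![1, n; 0, 1] * s41hkuctTri a b d
      ext i j
      fin_cases i <;> fin_cases j <;>
        simp [s41hkuctTri, Matrix.mul_apply, Fin.sum_univ_two])
  rw [map_one, mul_one] at key
  exact key

/-- two upper triangular matrices with positive upper left entries in the same `Γ₀(M)`-coset. -/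
theorem s41hkuct_same_coset {M : ℕ} {a b d a' b' d' : ℤ} (ha : 0 < a) (ha' : 0 < a')
    (h : (s41hkuctTri a b d).det ≠ 0) (h' : (s41hkuctTri a' b' d').det ≠ 0) (γ : Gamma0 M)
    (heq : s41hkGL (s41hkuctTri a b d) h = s16lbIota M γ * s41hkGL (s41hkuctTri a' b' d') h') :
    a = a' ∧ d = d' ∧ d ∣ b - b' := by
  have key := s41hk_int_of_conj (m := s41hkuctTri a b d) (m' := s41hkuctTri a' b' d') h h'
    (g := 1) (g' := (γ : SL(2, ℤ))) (by rw [map_one, mul_one]; exact heq)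
  have hdet := (γ : SL(2, ℤ)).det_coe
  rw [Matrix.det_fin_two] at hdet
  have h00 := congrFun (congrFun key 0) 0
  have h01 := congrFun (congrFun key 0) 1
  have h10 := congrFun (congrFun key 1) 0
  have h11 := congrFun (congrFun key 1) 1
  simp [s41hkuctTri, Matrix.mul_apply, Fin.sum_univ_two] at h00 h01 h10 h11
  have h10' : ((γ : SL(2, ℤ)) : Matrix (Fin 2) (Fin 2) ℤ) 1 0 = 0 := by
    rcases h10 with h0 | h0
    · exact h0
    · exact absurd h0 ha'.ne'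
  rw [h10', mul_zero, sub_zero] at hdet
  rw [h10', zero_mul, zero_add] at h11
  have h00pos : 0 < ((γ : SL(2, ℤ)) : Matrix (Fin 2) (Fin 2) ℤ) 0 0 := by
    by_contra hneg
    rw [not_lt] at hneg
    have : ((γ : SL(2, ℤ)) : Matrix (Fin 2) (Fin 2) ℤ) 0 0 * a' ≤ 0 :=
      mul_nonpos_of_nonpos_of_nonneg hneg ha'.le
    omega
  have h00one : ((γ : SL(2, ℤ)) : Matrix (Fin 2) (Fin 2) ℤ) 0 0 = 1 := by
    rcases Int.eq_one_or_neg_one_of_mul_eq_one hdet with h1 | h1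
    · exact h1
    · omega
  rw [h00one, one_mul] at hdet
  rw [h00one, one_mul] at h00 h01
  rw [hdet, one_mul] at h11
  refine ⟨h00, h11, ⟨((γ : SL(2, ℤ)) : Matrix (Fin 2) (Fin 2) ℤ) 0 1, ?_⟩⟩
  rw [h01, h11]; ring

/-! ### the representatives of the two composites -/

section Reps

variable (q : ℕ) [Fact q.Prime] (ℓ : ℕ) [Fact ℓ.Prime]

omit [Fact ℓ.Prime] in
theorem s41hkuct_repMat_tri (x : OnePoint (ZMod ℓ)) :
    s41hkRepMat ℓ x = s41hkuctTri (s16lbRepA ℓ x) (s16lbRepB ℓ x) (s16lbRepD ℓ x) := rfl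

theorem s41hkuct_repMat_coe (j : ZMod q) :
    s41hkRepMat q (j : OnePoint (ZMod q)) = s41hkuctTri 1 (j.val : ℤ) (q : ℤ) := by
  simp [s41hkRepMat, s41hkuctTri, s16lbRepA, s16lbRepB, s16lbRepD]

theorem s41hkuct_repA_pos (x : OnePoint (ZMod ℓ)) : (0 : ℤ) < (s16lbRepA ℓ x : ℤ) := by
  have hℓ : 0 < ℓ := (Fact.out : ℓ.Prime).pos
  induction x using OnePoint.rec with
  | infty => simpa [s16lbRepA] using hℓ
  | coe j => simp [s16lbRepA]

theorem s41hkuct_repD_pos (x : OnePoint (ZMod ℓ)) : (0 : ℤ) < (s16lbRepD ℓ x : ℤ) := by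
  have hℓ : 0 < ℓ := (Fact.out : ℓ.Prime).pos
  induction x using OnePoint.rec with
  | infty => simp [s16lbRepD]
  | coe j => simpa [s16lbRepD] using hℓ

/-- the upper right entry of `h_y u_j`. -/
def s41hkuctBTU (y : OnePoint (ZMod ℓ)) (j : ZMod q) : ℤ :=
  (s16lbRepA ℓ y : ℤ) * (j.val : ℤ) + (s16lbRepB ℓ y : ℤ) * (q : ℤ)

/-- the upper right entry of `u_j h_y`. -/
def s41hkuctBUT (j : ZMod q) (y : OnePoint (ZMod ℓ)) : ℤ :=
  (s16lbRepB ℓ y : ℤ) + (j.val : ℤ) * (s16lbRepD ℓ y : ℤ)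

theorem s41hkuct_detTU (y : OnePoint (ZMod ℓ)) (b : ℤ) :
    (s41hkuctTri (s16lbRepA ℓ y) b ((s16lbRepD ℓ y : ℤ) * (q : ℤ))).det ≠ 0 :=
  s41hkuct_tri_det_ne_zero (s41hkuct_repA_pos ℓ y).ne'
    (mul_ne_zero (s41hkuct_repD_pos ℓ y).ne' (by exact_mod_cast (Fact.out : q.Prime).ne_zero))

/-- `h_y u_j = [A_y, A_y j + B_y q; 0, D_y q]`. -/
theorem s41hkuct_TU_rep (y : OnePoint (ZMod ℓ)) (j : ZMod q) :
    heckeRep ℓ y * heckeRep q (j : OnePoint (ZMod q))
      = s41hkGL (s41hkuctTri (s16lbRepA ℓ y) (s41hkuctBTU q ℓ y j)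
          ((s16lbRepD ℓ y : ℤ) * (q : ℤ))) (s41hkuct_detTU q ℓ y _) := by
  rw [s41hk_heckeRep_eq, s41hk_heckeRep_eq, s41hkGL_mul]
  refine s41hkGL_congr ?_ _
  rw [s41hkuct_repMat_coe, s41hkuct_repMat_tri, s41hkuct_tri_mul, mul_one]
  rfl

/-- `u_j h_y = [A_y, B_y + j D_y; 0, q D_y]` (written with lower right entry `D_y q`). -/
theorem s41hkuct_UT_rep (j : ZMod q) (y : OnePoint (ZMod ℓ)) :
    heckeRep q (j : OnePoint (ZMod q)) * heckeRep ℓ y
      = s41hkGL (s41hkuctTri (s16lbRepA ℓ y) (s41hkuctBUT q ℓ j y)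
          ((s16lbRepD ℓ y : ℤ) * (q : ℤ))) (s41hkuct_detTU q ℓ y _) := by
  rw [s41hk_heckeRep_eq, s41hk_heckeRep_eq, s41hkGL_mul]
  refine s41hkGL_congr ?_ _
  rw [s41hkuct_repMat_coe, s41hkuct_repMat_tri, s41hkuct_tri_mul, one_mul, one_mul,
    mul_comm (q : ℤ)]
  rfl

theorem s41hkuct_eq_of_dvd (j j' : ZMod q) (h : (q : ℤ) ∣ (j.val : ℤ) - (j'.val : ℤ)) :
    j = j' := by
  have h3 := (ZMod.intCast_zmod_eq_zero_iff_dvd _ _).mpr h
  push_cast at h3
  rw [ZMod.natCast_zmod_val, ZMod.natCast_zmod_val, sub_eq_zero] at h3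
  exact h3

/-- the cosets of the `h_y u_j` are pairwise distinct. -/
theorem s41hkuct_TU_inj (hqℓ : q ≠ ℓ) (y y' : OnePoint (ZMod ℓ)) (j j' : ZMod q)
    (hA : (s16lbRepA ℓ y : ℤ) = (s16lbRepA ℓ y' : ℤ))
    (hdvd : (s16lbRepD ℓ y : ℤ) * (q : ℤ) ∣ s41hkuctBTU q ℓ y j - s41hkuctBTU q ℓ y' j') :
    (y, j) = (y', j') := by
  have hq : Prime (q : ℤ) := Nat.prime_iff_prime_int.mp Fact.out
  have hℓ : Prime (ℓ : ℤ) := Nat.prime_iff_prime_int.mp Fact.out
  have hℓ2 : 2 ≤ ℓ := (Fact.out : ℓ.Prime).two_le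
  have hq0 : (q : ℤ) ≠ 0 := hq.ne_zero
  have hqℓ' : ¬ (q : ℤ) ∣ (ℓ : ℤ) := by
    intro hd
    have hd' : q ∣ ℓ := by exact_mod_cast hd
    exact hqℓ ((Nat.prime_dvd_prime_iff_eq Fact.out Fact.out).mp hd')
  induction y using OnePoint.rec with
  | infty =>
    induction y' using OnePoint.rec with
    | infty =>
      have h1 : (q : ℤ) ∣ (ℓ : ℤ) * ((j.val : ℤ) - (j'.val : ℤ)) := by
        have : s41hkuctBTU q ℓ (OnePoint.infty : OnePoint (ZMod ℓ)) j
            - s41hkuctBTU q ℓ (OnePoint.infty : OnePoint (ZMod ℓ)) j'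
            = (ℓ : ℤ) * ((j.val : ℤ) - (j'.val : ℤ)) := by
          simp [s41hkuctBTU, s16lbRepA, s16lbRepB]
          ring
        rw [this] at hdvd
        exact dvd_trans (dvd_mul_left _ _) hdvd
      rcases hq.dvd_or_dvd h1 with h2 | h2
      · exact absurd h2 hqℓ'
      · rw [s41hkuct_eq_of_dvd q j j' h2]
    | coe k' =>
      exfalso
      simp [s16lbRepA] at hA
      omega
  | coe k =>
    induction y' using OnePoint.rec with
    | infty =>
      exfalso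
      simp [s16lbRepA] at hA
      omega
    | coe k' =>
      have h0 : s41hkuctBTU q ℓ ((k : ZMod ℓ) : OnePoint (ZMod ℓ)) j
          - s41hkuctBTU q ℓ ((k' : ZMod ℓ) : OnePoint (ZMod ℓ)) j'
          = ((j.val : ℤ) - (j'.val : ℤ)) + ((k.val : ℤ) - (k'.val : ℤ)) * (q : ℤ) := by
        simp [-ZMod.natCast_val, s41hkuctBTU, s16lbRepA, s16lbRepB]
        ring
      have hD : (s16lbRepD ℓ ((k : ZMod ℓ) : OnePoint (ZMod ℓ)) : ℤ) = (ℓ : ℤ) := by
        simp [s16lbRepD]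
      rw [h0, hD] at hdvd
      have h1 : (q : ℤ) ∣ (j.val : ℤ) - (j'.val : ℤ) := by
        have h2 : (q : ℤ) ∣ ((j.val : ℤ) - (j'.val : ℤ)) + ((k.val : ℤ) - (k'.val : ℤ)) * (q : ℤ) :=
          dvd_trans (dvd_mul_left _ _) hdvd
        exact (dvd_add_left (dvd_mul_left _ _)).mp h2
      have hj : j = j' := s41hkuct_eq_of_dvd q j j' h1
      subst hj
      rw [sub_self, zero_add] at hdvd
      have h3 : (ℓ : ℤ) ∣ (k.val : ℤ) - (k'.val : ℤ) :=
        (mul_dvd_mul_iff_right hq0).mp hdvd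
      rw [s41hkuct_eq_of_dvd ℓ k k' h3]

/-- every coset of an `h_y u_j` contains a `u_j' h_y'`. -/
theorem s41hkuct_hex (M : ℕ) (y : OnePoint (ZMod ℓ)) (j : ZMod q) :
    ∃ (j' : ZMod q) (y' : OnePoint (ZMod ℓ)) (γ : Gamma0 M),
      heckeRep q (j' : OnePoint (ZMod q)) * heckeRep ℓ y'
        = s16lbIota M γ * (heckeRep ℓ y * heckeRep q (j : OnePoint (ZMod q))) := by
  have hq0 : 0 < q := (Fact.out : q.Prime).pos
  have hℓ0 : 0 < ℓ := (Fact.out : ℓ.Prime).pos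
  induction y using OnePoint.rec with
  | infty =>
    refine ⟨((ℓ * j.val : ℕ) : ZMod q), OnePoint.infty,
      s41hkuctTr M (-((ℓ * j.val / q : ℕ) : ℤ)), ?_⟩
    rw [s41hkuct_UT_rep, s41hkuct_TU_rep]
    refine s41hkuct_translate M _ ?_ _ _
    have h1 : (((ℓ * j.val : ℕ) : ZMod q)).val = (ℓ * j.val) % q := ZMod.val_natCast _ _
    have h2 := Nat.mod_add_div (ℓ * j.val) q
    simp only [s41hkuctBUT, s41hkuctBTU, s16lbRepA, s16lbRepB, s16lbRepD, OnePoint.elim_infty, h1]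
    have h3 : (((ℓ * j.val) % q : ℕ) : ℤ) + (q : ℤ) * ((ℓ * j.val / q : ℕ) : ℤ)
        = (ℓ : ℤ) * (j.val : ℤ) := by exact_mod_cast h2
    push_cast at h3 ⊢
    linear_combination h3
  | coe k =>
    set r : ℕ := j.val + k.val * q with hr
    have hrlt : r < q * ℓ := by
      have h1 : j.val < q := ZMod.val_lt j
      have h2 : k.val < ℓ := ZMod.val_lt k
      calc r < q + k.val * q := by omega
        _ = (k.val + 1) * q := by ring
        _ ≤ ℓ * q := Nat.mul_le_mul_right q h2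
        _ = q * ℓ := mul_comm _ _
    refine ⟨((r / ℓ : ℕ) : ZMod q), (((r : ℕ) : ZMod ℓ) : OnePoint (ZMod ℓ)),
      s41hkuctTr M 0, ?_⟩
    rw [s41hkuct_UT_rep, s41hkuct_TU_rep]
    refine s41hkuct_translate M _ ?_ _ _
    have h1 : (((r / ℓ : ℕ) : ZMod q)).val = r / ℓ := by
      rw [ZMod.val_natCast]
      exact Nat.mod_eq_of_lt ((Nat.div_lt_iff_lt_mul hℓ0).mpr hrlt)
    have h2 : ((r : ℕ) : ZMod ℓ).val = r % ℓ := ZMod.val_natCast _ _
    have h3 := Nat.mod_add_div r ℓ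
    simp only [s41hkuctBUT, s41hkuctBTU, s16lbRepA, s16lbRepB, s16lbRepD, OnePoint.elim_some,
      h1, h2]
    have h4 : ((r % ℓ : ℕ) : ℤ) + (ℓ : ℤ) * ((r / ℓ : ℕ) : ℤ) = (j.val : ℤ) + (k.val : ℤ) * (q : ℤ) := by
      rw [hr] at h3 ⊢
      exact_mod_cast h3
    linear_combination h4

end Reps

/-! ### the theorem -/

section

variable {N q : ℕ} [Fact q.Prime] (D : S41hkAL N q)

variable (ℓ : ℕ) [Fact ℓ.Prime] (hℓ : ¬ ℓ ∣ N * q) (hℓ' : ¬ ℓ ∣ N)

/-- **(H8)** `U_q ∘ T'_ℓ = T'_ℓ ∘ U_q`. -/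
theorem s41hk_U_comp_T :
    (s41hkU (N * q) q (dvd_mul_left q N)).comp (s41hkT (N * q) ℓ hℓ)
      = (s41hkT (N * q) ℓ hℓ).comp (s41hkU (N * q) q (dvd_mul_left q N)) := by
  have hqℓ : q ≠ ℓ := by
    rintro rfl
    exact hℓ (dvd_mul_left _ _)
  set CU := s41hkOfHecke (s16lbDataU (N * q) q (dvd_mul_left q N)) with hCU
  set CT := s41hkOfHecke (s16lbDataT (N * q) ℓ hℓ) with hCT
  have hU : s41hkU (N * q) q (dvd_mul_left q N) = CU.trAb := (s41hkOfHecke_trAb _).symm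
  have hT : s41hkT (N * q) ℓ hℓ = CT.trAb := (s41hkOfHecke_trAb _).symm
  rw [hU, hT, ← S41Corr.comp_trAb CU CT rfl, ← S41Corr.comp_trAb CT CU rfl]
  refine S41Corr.trAb_eq_of_matching (CT.comp CU rfl) (CU.comp CT rfl) rfl rfl ?_ ?_ ?_
  · -- distinctness of the cosets of the `h_y u_j`
    rintro ⟨y, j⟩ ⟨y', j'⟩ γ hγ
    have h1 : heckeRep ℓ y * heckeRep q (j : OnePoint (ZMod q))
        = s16lbIota (N * q) γ * (heckeRep ℓ y' * heckeRep q (j' : OnePoint (ZMod q))) := hγ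
    rw [s41hkuct_TU_rep, s41hkuct_TU_rep] at h1
    obtain ⟨hA, hD, hdvd⟩ := s41hkuct_same_coset (s41hkuct_repA_pos ℓ y) (s41hkuct_repA_pos ℓ y')
      _ _ γ h1
    exact s41hkuct_TU_inj q ℓ hqℓ y y' j j' hA hdvd
  · rw [Fintype.card_prod, Fintype.card_prod, mul_comm]
  · rintro ⟨y, j⟩
    obtain ⟨j', y', γ, h⟩ := s41hkuct_hex q ℓ (N * q) y j
    exact ⟨(j', y'), γ, h⟩

end

end Fermat.Agent.S41
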