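import Fermat.Agent.S41.HK.Defs

/-!
# S41, package HK, leaf (H5): `Va ∘ T_ℓ = T'_ℓ ∘ Va`

The transfer `Va : Γ₀(N)^ab → Γ₀(N q)^ab` commutes with the Hecke operators `T_ℓ`, `ℓ ∤ N q`.

Both sides are `trAb` of composed correspondences: `C` with representatives `β_x · R_y` and
`C'` with representatives `R_y' · β_x'` (`R_y = heckeRep ℓ y`).  The family `C` consists of distinct
`Γ₀(N q)`-cosets, both families have `(q + 1)(ℓ + 1)` members, and every `β_x R_y` is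
`g · R_y' · β_x'` with `g ∈ Γ₀(N q)` (Lemma G to find `x'`, Lemma F to find `y'` and `g`), so the
matching lemma `S41Corr.trAb_eq_of_matching` applies.
-/

set_option autoImplicit false

noncomputable section

namespace Fermat.Agent.S41

open P2MW.S_ModularForm_heckeT_slash_eq_self_of_mem_Gamma0.ModularForm.HeckeSlashInvariance
open ModularForm CongruenceSubgroup Matrix.SpecialLinearGroup Fermat.Agent.S16LB
open scoped MatrixGroups

section

variable {N q : ℕ} [Fact q.Prime] (D : S41hkAL N q)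

variable (ℓ : ℕ) [Fact ℓ.Prime] (hℓ : ¬ ℓ ∣ N * q) (hℓ' : ¬ ℓ ∣ N)

omit [Fact q.Prime] in
/-- the upper left entry `A_y ∈ {1, ℓ}` of a representative is prime to `M` when `ℓ ∤ M`. -/
theorem s41hkvt_isCoprime_repA (M : ℕ) (hM : ¬ ℓ ∣ M) (y : OnePoint (ZMod ℓ)) :
    IsCoprime ((M : ℕ) : ℤ) (s16lbRepA ℓ y : ℤ) := by
  have hℓp : ℓ.Prime := Fact.out
  induction y using OnePoint.rec with
  | infty =>
    show IsCoprime ((M : ℕ) : ℤ) ((ℓ : ℕ) : ℤ)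
    exact Nat.isCoprime_iff_coprime.mpr ((hℓp.coprime_iff_not_dvd).mpr hM).symm
  | coe j =>
    show IsCoprime ((M : ℕ) : ℤ) ((1 : ℕ) : ℤ)
    rw [Nat.cast_one]
    exact isCoprime_one_right

/-- the integer matching: `β_x R_y = g R_y' β_x'` with `g ∈ Γ₀(N q)`. -/
theorem s41hkvt_match (hℓ : ¬ ℓ ∣ N * q) (x : OnePoint (ZMod q)) (y : OnePoint (ZMod ℓ)) :
    ∃ (y' : OnePoint (ZMod ℓ)) (x' : OnePoint (ZMod q)) (g : SL(2, ℤ)),
      g ∈ Gamma0 (N * q) ∧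
      D.betaMat x * s41hkRepMat ℓ y
        = (g : Matrix (Fin 2) (Fin 2) ℤ) * (s41hkRepMat ℓ y' * D.betaMat x') := by
  have hmdet : (D.betaMat x * s41hkRepMat ℓ y).det = ℓ := by
    rw [Matrix.det_mul, D.betaMat_det, s41hkRepMat_det, one_mul]
  have hm10 : (D.betaMat x * s41hkRepMat ℓ y) 1 0 = (D.betaMat x) 1 0 * (s16lbRepA ℓ y : ℤ) := by
    rw [Matrix.mul_apply, Fin.sum_univ_two]
    simp [s41hkRepMat]
  generalize D.betaMat x * s41hkRepMat ℓ y = m at hmdet hm10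
  have hNm : (N : ℤ) ∣ m 1 0 := by
    rw [hm10]
    exact Dvd.dvd.mul_right (D.betaMat_dvd x) _
  obtain ⟨x', hx'⟩ := D.exists_beta_dvd (m 1 0) (m 1 1)
  have hbdet := D.betaMat_det x'
  have hbN := D.betaMat_dvd x'
  generalize hb : D.betaMat x' = b at hx' hbdet hbN
  have hm'b : m * b.adjugate * b = m := by
    rw [Matrix.mul_assoc, Matrix.adjugate_mul, hbdet, one_smul, Matrix.mul_one]
  have hm'det : (m * b.adjugate).det = ℓ := by
    rw [Matrix.det_mul, Matrix.det_adjugate, hbdet, one_pow, mul_one, hmdet]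
  have hm'10 : (m * b.adjugate) 1 0 = m 1 0 * b 1 1 - m 1 1 * b 1 0 := by
    rw [Matrix.adjugate_fin_two, Matrix.mul_apply, Fin.sum_univ_two]
    simp
    ring
  have hNq : ((N * q : ℕ) : ℤ) ∣ (m * b.adjugate) 1 0 := by
    push_cast
    refine D.isCoprime.mul_dvd ?_ ?_
    · rw [hm'10]
      exact dvd_sub (Dvd.dvd.mul_right hNm _) (Dvd.dvd.mul_left hbN _)
    · rw [hm'10]
      exact hx'
  obtain ⟨g, y', hg, hg10⟩ := s41hk_exists_heckeRep ℓ (m * b.adjugate) hm'det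
  refine ⟨y', x', g, ?_, ?_⟩
  · refine s16lb_mem_Gamma0_of_dvd ?_
    rw [hg10] at hNq
    exact (s41hkvt_isCoprime_repA ℓ (N * q) hℓ y').dvd_of_dvd_mul_right hNq
  · rw [← Matrix.mul_assoc, ← hg, hb, hm'b]

omit [Fact q.Prime] in
theorem s41hkvt_iota_beta (x : OnePoint (ZMod q)) :
    s16lbIota N (D.beta x)
      = s41hkGL (D.betaMat x) (by rw [D.betaMat_det]; exact one_ne_zero) := by
  rw [s16lbIota_apply, s41hkGL_coe_SL]
  rfl

theorem s41hkvt_h12 (hℓ' : ¬ ℓ ∣ N) :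
    D.VaCorr.ι₂ = (s41hkOfHecke (s16lbDataT N ℓ hℓ')).ι₁ := rfl

theorem s41hkvt_h12' (hℓ : ¬ ℓ ∣ N * q) :
    (s41hkOfHecke (s16lbDataT (N * q) ℓ hℓ)).ι₂ = D.VaCorr.ι₁ := rfl

/-- **(H5)** `Va ∘ T_ℓ = T'_ℓ ∘ Va`. -/
theorem s41hk_Va_comp_T :
    D.Va.comp (s41hkT N ℓ hℓ') = (s41hkT (N * q) ℓ hℓ).comp D.Va := by
  have h1 : (D.VaCorr.comp (s41hkOfHecke (s16lbDataT N ℓ hℓ')) (s41hkvt_h12 D ℓ hℓ')).trAb
      = D.Va.comp (s41hkT N ℓ hℓ') := by
    rw [S41Corr.comp_trAb, s41hkOfHecke_trAb]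
    rfl
  have h2 : ((s41hkOfHecke (s16lbDataT (N * q) ℓ hℓ)).comp D.VaCorr (s41hkvt_h12' D ℓ hℓ)).trAb
      = (s41hkT (N * q) ℓ hℓ).comp D.Va := by
    rw [S41Corr.comp_trAb, s41hkOfHecke_trAb]
    rfl
  rw [← h1, ← h2]
  symm
  refine S41Corr.trAb_eq_of_matching _ _ rfl rfl ?_ ?_ ?_
  · exact S41Corr.comp_distinct_of_transfer _ _ _ (s41hkIncl N q) rfl D.beta (fun _ => rfl)
      D.VaCorr_distinct (s41hkOfHecke_distinct _)
  · rw [Fintype.card_prod, Fintype.card_prod, mul_comm]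
  · rintro ⟨x, y⟩
    obtain ⟨y', x', g, hg, hmat⟩ := s41hkvt_match D ℓ hℓ x y
    refine ⟨(y', x'), (⟨g, hg⟩ : Gamma0 (N * q))⁻¹, ?_⟩
    show heckeRep ℓ y' * s16lbIota N (D.beta x')
      = s16lbIota (N * q) (⟨g, hg⟩ : Gamma0 (N * q))⁻¹ * (s16lbIota N (D.beta x) * heckeRep ℓ y)
    rw [map_inv, eq_inv_mul_iff_mul_eq, s41hk_heckeRep_eq, s41hk_heckeRep_eq,
      s41hkvt_iota_beta, s41hkvt_iota_beta, s16lbIota_apply, s41hkGL_coe_SL, s41hkGL_mul,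
      s41hkGL_mul, s41hkGL_mul]
    exact s41hkGL_congr hmat.symm _

end

end Fermat.Agent.S41
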