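/-
S41, package HK, row S41-HK-H4 (helper7): `A ∘ T'_ℓ = T_ℓ ∘ A`.  Statement VERBATIM from helper1's
`S41/HK/Spec.lean` (origin/helper1 c099104).

Both sides are `trAb` of a composite correspondence `Γ₀(N) ← Γ₀(N q)`: the left one has
representatives `1 * heckeRep ℓ y`, the right one `heckeRep ℓ y * 1`; matching lemma with trivial
matching.
-/
import Fermat.Agent.S41.HK.Defs

set_option autoImplicit false
set_option linter.unusedSectionVars false

noncomputable section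

namespace Fermat.Agent.S41

open P2MW.S_ModularForm_heckeT_slash_eq_self_of_mem_Gamma0.ModularForm.HeckeSlashInvariance
open ModularForm CongruenceSubgroup Matrix.SpecialLinearGroup Fermat.Agent.S16LB
open scoped MatrixGroups

section

variable {N q : ℕ} [Fact q.Prime] (D : S41hkAL N q)

variable (ℓ : ℕ) [Fact ℓ.Prime] (hℓ : ¬ ℓ ∣ N * q) (hℓ' : ¬ ℓ ∣ N)

/-- **(H4)** `A ∘ T'_ℓ = T_ℓ ∘ A`. -/
theorem s41hk_A_comp_T :
    (s41hkA N q).comp (s41hkT (N * q) ℓ hℓ) = (s41hkT N ℓ hℓ').comp (s41hkA N q) := by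
  -- the three correspondences
  set Cincl : S41Corr (GL (Fin 2) ℝ) (Gamma0 N) (Gamma0 (N * q)) Unit :=
    S41Corr.incl (s16lbIota N) (s16lbIota_injective N) (s41hkIncl N q) with hCincl
  set CT' : S41Corr (GL (Fin 2) ℝ) (Gamma0 (N * q)) (Gamma0 (N * q)) (OnePoint (ZMod ℓ)) :=
    s41hkOfHecke (s16lbDataT (N * q) ℓ hℓ) with hCT'
  set CT : S41Corr (GL (Fin 2) ℝ) (Gamma0 N) (Gamma0 N) (OnePoint (ZMod ℓ)) :=
    s41hkOfHecke (s16lbDataT N ℓ hℓ') with hCT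
  have hL : Cincl.ι₂ = CT'.ι₁ := rfl
  have hR : CT.ι₂ = Cincl.ι₁ := rfl
  have hA : s41hkA N q = Cincl.trAb := rfl
  have hT' : s41hkT (N * q) ℓ hℓ = CT'.trAb := (s41hkOfHecke_trAb _).symm
  have hT : s41hkT N ℓ hℓ' = CT.trAb := (s41hkOfHecke_trAb _).symm
  rw [hA, hT', hT, ← S41Corr.comp_trAb Cincl CT' hL, ← S41Corr.comp_trAb CT Cincl hR]
  refine S41Corr.trAb_eq_of_matching (CT.comp Cincl hR) (Cincl.comp CT' hL) rfl rfl
    (S41Corr.comp_distinct_of_unit CT Cincl hR (s41hkOfHecke_distinct _)) ?_ ?_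
  · rw [Fintype.card_prod, Fintype.card_prod, mul_comm]
  · rintro ⟨y, ⟨⟩⟩
    refine ⟨((), y), 1, ?_⟩
    show (1 : GL (Fin 2) ℝ) * heckeRep ℓ y = s16lbIota N 1 * (heckeRep ℓ y * 1)
    rw [map_one, one_mul, one_mul, mul_one]

end

end Fermat.Agent.S41
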