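import Fermat.Agent.S41.HK.Defs
import Fermat.Agent.G.Per.Defs

/-!
# S41, package HK, leaf (H2): `A ∘ Va = q + 1`

The composite of the transfer `Va : Γ₀(N)^ab → Γ₀(N q)^ab` with the map `A` induced by the inclusion
is multiplication by the index `q + 1`: the composite correspondence has the `q + 1` representatives
`1 * β_x ∈ Γ₀(N)`.
-/

set_option autoImplicit false

noncomputable section

namespace Fermat.Agent.S41

open P2MW.S_ModularForm_heckeT_slash_eq_self_of_mem_Gamma0.ModularForm.HeckeSlashInvariance
open ModularForm CongruenceSubgroup Matrix.SpecialLinearGroup Fermat.Agent.S16LB Fermat.Agent.G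
open scoped MatrixGroups

section

variable {N q : ℕ} [Fact q.Prime] (D : S41hkAL N q)

omit D in
/-- the index set of the composite correspondence has `q + 1` elements. -/
theorem s41hkav_card : Fintype.card (Unit × OnePoint (ZMod q)) = q + 1 := by
  rw [Fintype.card_prod, Fintype.card_unit, one_mul]
  show Fintype.card (Option (ZMod q)) = q + 1
  rw [Fintype.card_option, ZMod.card]

/-- **(H2)** `A ∘ Va = q + 1`. -/
theorem s41hk_A_comp_Va :
    (s41hkA N q).comp D.Va = (q + 1) • AddMonoidHom.id (s16lbAb N) := by
  have hcomp := S41Corr.comp_trAb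
    (S41Corr.incl (s16lbIota N) (s16lbIota_injective N) (s41hkIncl N q)) D.VaCorr rfl
  have h1 : (s41hkA N q).comp D.Va
      = ((S41Corr.incl (s16lbIota N) (s16lbIota_injective N) (s41hkIncl N q)).comp
          D.VaCorr rfl).trAb := hcomp.symm
  rw [h1]
  refine S41Corr.ab_ext fun γ => ?_
  have h2 := S41Corr.trAb_eq_card_smul
    ((S41Corr.incl (s16lbIota N) (s16lbIota_injective N) (s41hkIncl N q)).comp D.VaCorr rfl)
    (MonoidHom.id (Gamma0 N)) rfl (fun i => D.beta i.2)
    (fun i => by
      show (1 : GL (Fin 2) ℝ) * s16lbIota N (D.beta i.2) = s16lbIota N (D.beta i.2)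
      rw [one_mul]) γ
  rw [h2, s41hkav_card]
  rfl

end

end Fermat.Agent.S41
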