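import Mathlib

/-!
# S41, package HK: abstract correspondences between two subgroups and the induced maps on
abelianisations (two-group version of `S16lbHeckeData`)

`S41Corr 𝔾 Γ₁ Γ₂ I`: groups `Γ₁, Γ₂` embedded in `𝔾` (`ι₁` injective), a finite family `α i : 𝔾` and
data `idx : Γ₂ → I → I`, `coc : Γ₂ → I → Γ₁` with `α i * ι₂ γ = ι₁ (coc γ i) * α (idx γ i)`,
`idx` a right action.  Multiplicities are allowed (the `α i` need not lie in distinct cosets), so that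
correspondences can be COMPOSED.

* `S41Corr.trAb : Γ₂^ab → Γ₁^ab`, `[γ] ↦ ∑ i, [coc γ i]` (additively written);
  `φ ↦ φ ∘ trAb` is the induced map `Hom(Γ₁, A) → Hom(Γ₂, A)`: restriction, corestriction
  (transfer), conjugation, Hecke operators are all of this form.
* `S41Corr.comp`, `S41Corr.comp_trAb`: composition.
* `S41Corr.trAb_eq_of_equiv`: independence of the representatives.
* `S41Corr.trAb_eq_card_smul`: if the `α i` come from `Γ₁ ⊇ Γ₂` then `trAb = |I| • incl`.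
* `S41Corr.ofCosets`: the datum attached to a family of representatives of distinct cosets.
-/

set_option autoImplicit false

noncomputable section

namespace Fermat.Agent.S41

/-- A correspondence datum from `Γ₁` to `Γ₂` inside `𝔾`. -/
structure S41Corr (𝔾 Γ₁ Γ₂ I : Type*) [Group 𝔾] [Group Γ₁] [Group Γ₂] where
  /-- the embedding of `Γ₁` -/
  ι₁ : Γ₁ →* 𝔾
  /-- the map of `Γ₂` -/
  ι₂ : Γ₂ →* 𝔾
  hι₁ : Function.Injective ι₁
  /-- the representatives -/
  α : I → 𝔾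
  /-- the (right) action of `Γ₂` on the index set -/
  idx : Γ₂ → I → I
  /-- the cocycle -/
  coc : Γ₂ → I → Γ₁
  spec : ∀ (γ : Γ₂) (i : I), α i * ι₂ γ = ι₁ (coc γ i) * α (idx γ i)
  idx_one : ∀ i : I, idx 1 i = i
  idx_mul : ∀ (γ δ : Γ₂) (i : I), idx (γ * δ) i = idx δ (idx γ i)

namespace S41Corr

variable {𝔾 Γ₁ Γ₂ Γ₃ I J : Type*} [Group 𝔾] [Group Γ₁] [Group Γ₂] [Group Γ₃]
  (C : S41Corr 𝔾 Γ₁ Γ₂ I)

theorem ι₁_coc (γ : Γ₂) (i : I) : C.ι₁ (C.coc γ i) = C.α i * C.ι₂ γ * (C.α (C.idx γ i))⁻¹ := by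
  rw [C.spec γ i, mul_inv_cancel_right]

theorem coc_one (i : I) : C.coc 1 i = 1 := by
  apply C.hι₁
  rw [C.ι₁_coc, C.idx_one, map_one, mul_one, mul_inv_cancel, map_one]

theorem coc_mul (γ δ : Γ₂) (i : I) :
    C.coc (γ * δ) i = C.coc γ i * C.coc δ (C.idx γ i) := by
  apply C.hι₁
  rw [map_mul, C.ι₁_coc, C.ι₁_coc, C.ι₁_coc, C.idx_mul, map_mul]
  group

/-- the permutation of `I` attached to `γ`. -/
def perm (γ : Γ₂) : Equiv.Perm I where
  toFun := C.idx γ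
  invFun := C.idx γ⁻¹
  left_inv i := by rw [← C.idx_mul, mul_inv_cancel, C.idx_one]
  right_inv i := by rw [← C.idx_mul, inv_mul_cancel, C.idx_one]

@[simp] theorem perm_apply (γ : Γ₂) (i : I) : C.perm γ i = C.idx γ i := rfl

variable [Fintype I]

/-- `Γ₂ → Γ₁^ab`, `γ ↦ ∑ i, [coc γ i]`. -/
def trHom : Additive Γ₂ →+ Additive (Abelianization Γ₁) where
  toFun γ := ∑ i, Additive.ofMul (Abelianization.of (C.coc (Additive.toMul γ) i))
  map_zero' := by
    show ∑ i, Additive.ofMul (Abelianization.of (C.coc 1 i)) = 0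
    simp [C.coc_one]
  map_add' γ δ := by
    show ∑ i, Additive.ofMul (Abelianization.of
      (C.coc (Additive.toMul γ * Additive.toMul δ) i)) = _
    simp only [C.coc_mul, map_mul, ofMul_mul, Finset.sum_add_distrib]
    congr 1
    exact Equiv.sum_comp (C.perm (Additive.toMul γ))
      (fun i => Additive.ofMul (Abelianization.of (C.coc (Additive.toMul δ) i)))

/-- the induced map `Γ₂^ab → Γ₁^ab`. -/
def trAb : Additive (Abelianization Γ₂) →+ Additive (Abelianization Γ₁) :=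
  MonoidHom.toAdditiveLeft
    (Abelianization.lift (AddMonoidHom.toMultiplicativeRight C.trHom))

theorem trAb_of (γ : Γ₂) :
    C.trAb (Additive.ofMul (Abelianization.of γ))
      = ∑ i, Additive.ofMul (Abelianization.of (C.coc γ i)) := by
  simp [trAb, trHom]

/-- two additive maps out of `Γ^ab` agreeing on the classes `[γ]` are equal. -/
theorem ab_ext {Γ : Type*} [Group Γ] {A : Type*} [AddCommGroup A]
    {f g : Additive (Abelianization Γ) →+ A}
    (h : ∀ γ : Γ, f (Additive.ofMul (Abelianization.of γ)) = g (Additive.ofMul (Abelianization.of γ))) :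
    f = g := by
  refine AddMonoidHom.ext fun x => ?_
  obtain ⟨γ, hγ⟩ := QuotientGroup.mk_surjective (s := commutator Γ) (Additive.toMul x)
  have hx : x = Additive.ofMul (Abelianization.of γ) := congrArg Additive.ofMul hγ.symm
  rw [hx]
  exact h γ

/-- the class of `a * b * c⁻¹` in the abelianisation, additively. -/
theorem ofMul_of_mul_inv {Γ : Type*} [Group Γ] (a b c : Γ) :
    Additive.ofMul (Abelianization.of (a * b * c⁻¹))
      = Additive.ofMul (Abelianization.of b)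
        + (Additive.ofMul (Abelianization.of a) - Additive.ofMul (Abelianization.of c)) := by
  rw [MonoidHom.map_mul, MonoidHom.map_mul, MonoidHom.map_inv, ofMul_mul, ofMul_mul, ofMul_inv]
  abel

/-! ### composition -/

/-- composition of correspondences: representatives `α i * β j`. -/
def comp (C₁₂ : S41Corr 𝔾 Γ₁ Γ₂ I) (C₂₃ : S41Corr 𝔾 Γ₂ Γ₃ J) (h : C₁₂.ι₂ = C₂₃.ι₁) :
    S41Corr 𝔾 Γ₁ Γ₃ (I × J) where
  ι₁ := C₁₂.ι₁
  ι₂ := C₂₃.ι₂
  hι₁ := C₁₂.hι₁
  α ij := C₁₂.α ij.1 * C₂₃.α ij.2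
  idx γ ij := (C₁₂.idx (C₂₃.coc γ ij.2) ij.1, C₂₃.idx γ ij.2)
  coc γ ij := C₁₂.coc (C₂₃.coc γ ij.2) ij.1
  spec γ ij := by
    rw [mul_assoc, C₂₃.spec γ ij.2, ← mul_assoc, ← h, C₁₂.spec, mul_assoc]
  idx_one ij := by
    rw [C₂₃.coc_one, C₁₂.idx_one, C₂₃.idx_one]
  idx_mul γ δ ij := by
    rw [C₂₃.coc_mul, C₁₂.idx_mul, C₂₃.idx_mul]

variable [Fintype J]

theorem comp_trAb (C₁₂ : S41Corr 𝔾 Γ₁ Γ₂ I) (C₂₃ : S41Corr 𝔾 Γ₂ Γ₃ J) (h : C₁₂.ι₂ = C₂₃.ι₁) :
    (C₁₂.comp C₂₃ h).trAb = C₁₂.trAb.comp C₂₃.trAb := by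
  refine ab_ext fun γ => ?_
  rw [AddMonoidHom.comp_apply, trAb_of, trAb_of, map_sum, Fintype.sum_prod_type, Finset.sum_comm]
  refine Finset.sum_congr rfl fun j _ => ?_
  rw [trAb_of]
  rfl

/-! ### independence of the representatives -/

/-- changing the representatives inside their `Γ₁`-cosets (compatibly with the index action) does
not change `trAb`. -/
theorem trAb_eq_of_equiv {I' : Type*} [Fintype I'] (C' : S41Corr 𝔾 Γ₁ Γ₂ I')
    (h₁ : C'.ι₁ = C.ι₁) (h₂ : C'.ι₂ = C.ι₂) (e : I ≃ I') (ε : I → Γ₁)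
    (hα : ∀ i, C'.α (e i) = C.ι₁ (ε i) * C.α i)
    (hidx : ∀ γ i, C'.idx γ (e i) = e (C.idx γ i)) :
    C'.trAb = C.trAb := by
  have hcoc : ∀ γ i, C'.coc γ (e i) = ε i * C.coc γ i * (ε (C.idx γ i))⁻¹ := by
    intro γ i
    apply C.hι₁
    rw [← h₁, C'.ι₁_coc, hidx, hα, hα, h₂, h₁, map_mul, map_mul, map_inv, C.ι₁_coc]
    group
  refine ab_ext fun γ => ?_
  rw [trAb_of, trAb_of, ← Equiv.sum_comp e]
  have h1 : ∀ i, Additive.ofMul (Abelianization.of (C'.coc γ (e i)))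
      = Additive.ofMul (Abelianization.of (C.coc γ i))
        + (Additive.ofMul (Abelianization.of (ε i))
          - Additive.ofMul (Abelianization.of (ε (C.idx γ i)))) := by
    intro i
    rw [hcoc, ofMul_of_mul_inv]
  simp only [h1, Finset.sum_add_distrib, Finset.sum_sub_distrib]
  have h2 : ∑ i, Additive.ofMul (Abelianization.of (ε (C.idx γ i)))
      = ∑ i, Additive.ofMul (Abelianization.of (ε i)) :=
    Equiv.sum_comp (C.perm γ) (fun i => Additive.ofMul (Abelianization.of (ε i)))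
  rw [h2, sub_self, add_zero]

/-! ### representatives inside `Γ₁` -/

/-- if `Γ₂ → Γ₁` (`ι₂ = ι₁ ∘ j`) and all representatives lie in `Γ₁`, then `trAb = |I| • j^ab`. -/
theorem trAb_eq_card_smul (j : Γ₂ →* Γ₁) (hj : C.ι₂ = C.ι₁.comp j) (β : I → Γ₁)
    (hβ : ∀ i, C.α i = C.ι₁ (β i)) (γ : Γ₂) :
    C.trAb (Additive.ofMul (Abelianization.of γ))
      = Fintype.card I • Additive.ofMul (Abelianization.of (j γ)) := by
  have hcoc : ∀ i, C.coc γ i = β i * j γ * (β (C.idx γ i))⁻¹ := by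
    intro i
    apply C.hι₁
    rw [C.ι₁_coc, hβ, hβ, hj, map_mul, map_mul, map_inv]
    rfl
  rw [trAb_of]
  have h1 : ∀ i, Additive.ofMul (Abelianization.of (C.coc γ i))
      = Additive.ofMul (Abelianization.of (j γ))
        + (Additive.ofMul (Abelianization.of (β i))
          - Additive.ofMul (Abelianization.of (β (C.idx γ i)))) := by
    intro i
    rw [hcoc, ofMul_of_mul_inv]
  simp only [h1, Finset.sum_add_distrib, Finset.sum_sub_distrib]
  have h2 : ∑ i, Additive.ofMul (Abelianization.of (β (C.idx γ i)))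
      = ∑ i, Additive.ofMul (Abelianization.of (β i)) :=
    Equiv.sum_comp (C.perm γ) (fun i => Additive.ofMul (Abelianization.of (β i)))
  rw [h2, sub_self, add_zero, Finset.sum_const, Finset.card_univ]

/-! ### constructors -/

omit [Fintype I] in
/-- the datum attached to representatives `α i` of DISTINCT left `Γ₁`-cosets whose union is stable
under right multiplication by `Γ₂` (`idx`, `coc` are then uniquely determined). -/
def ofCosets (ι₁ : Γ₁ →* 𝔾) (ι₂ : Γ₂ →* 𝔾) (hι₁ : Function.Injective ι₁) (α : I → 𝔾)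
    (hex : ∀ (γ : Γ₂) (i : I), ∃ (j : I) (γ' : Γ₁), α i * ι₂ γ = ι₁ γ' * α j)
    (hun : ∀ (i j : I) (γ' : Γ₁), α i = ι₁ γ' * α j → i = j) : S41Corr 𝔾 Γ₁ Γ₂ I where
  ι₁ := ι₁
  ι₂ := ι₂
  hι₁ := hι₁
  α := α
  idx γ i := (hex γ i).choose
  coc γ i := (hex γ i).choose_spec.choose
  spec γ i := (hex γ i).choose_spec.choose_spec
  idx_one i := by
    have h := (hex 1 i).choose_spec.choose_spec
    generalize (hex 1 i).choose_spec.choose = g at h
    generalize (hex 1 i).choose = j at h ⊢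
    rw [map_one, mul_one] at h
    exact (hun _ _ _ h).symm
  idx_mul γ δ i := by
    have h1 := (hex (γ * δ) i).choose_spec.choose_spec
    have h2 := (hex γ i).choose_spec.choose_spec
    have h3 := (hex δ (hex γ i).choose).choose_spec.choose_spec
    generalize (hex (γ * δ) i).choose_spec.choose = g1 at h1
    generalize (hex (γ * δ) i).choose = j1 at h1 ⊢
    generalize (hex δ (hex γ i).choose).choose_spec.choose = g3 at h3
    generalize (hex δ (hex γ i).choose).choose = j3 at h3 ⊢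
    generalize (hex γ i).choose_spec.choose = g2 at h2
    generalize (hex γ i).choose = j2 at h2 h3
    rw [map_mul, ← mul_assoc, h2, mul_assoc, h3, ← mul_assoc, ← map_mul] at h1
    have h4 : α j3 = ι₁ ((g2 * g3)⁻¹ * g1) * α j1 := by
      rw [map_mul, map_inv, mul_assoc, ← h1, inv_mul_cancel_left]
    exact (hun _ _ _ h4).symm

omit [Fintype I] in
/-- in a datum with distinct cosets, `idx` and `coc` are characterised by `spec`. -/
theorem unique_of_distinct (hun : ∀ (i j : I) (γ' : Γ₁), C.α i = C.ι₁ γ' * C.α j → i = j)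
    {γ : Γ₂} {i j : I} {γ' : Γ₁} (h : C.α i * C.ι₂ γ = C.ι₁ γ' * C.α j) :
    j = C.idx γ i ∧ γ' = C.coc γ i := by
  have h2 := C.spec γ i
  rw [h] at h2
  have h3 : C.α j = C.ι₁ (γ'⁻¹ * C.coc γ i) * C.α (C.idx γ i) := by
    rw [map_mul, map_inv, mul_assoc, ← h2, inv_mul_cancel_left]
  have hj := hun _ _ _ h3
  refine ⟨hj, ?_⟩
  rw [hj] at h2
  exact C.hι₁ (mul_right_cancel h2)

omit [Fintype I] in
/-- restriction along `j : Γ₂ →* Γ₁` (one representative `1`). -/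
def incl (ι₁ : Γ₁ →* 𝔾) (hι₁ : Function.Injective ι₁) (j : Γ₂ →* Γ₁) : S41Corr 𝔾 Γ₁ Γ₂ Unit where
  ι₁ := ι₁
  ι₂ := ι₁.comp j
  hι₁ := hι₁
  α _ := 1
  idx _ i := i
  coc γ _ := j γ
  spec γ i := by simp
  idx_one _ := rfl
  idx_mul _ _ _ := rfl

theorem incl_trAb (ι₁ : Γ₁ →* 𝔾) (hι₁ : Function.Injective ι₁) (j : Γ₂ →* Γ₁) (γ : Γ₂) :
    (incl ι₁ hι₁ j).trAb (Additive.ofMul (Abelianization.of γ))
      = Additive.ofMul (Abelianization.of (j γ)) := by
  rw [trAb_of]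
  simp [incl]

omit [Fintype I] in
/-- conjugation by `g : 𝔾` when `g Γ₂ g⁻¹ ⊆ Γ₁` (one representative `g`). -/
def conj (ι₁ : Γ₁ →* 𝔾) (ι₂ : Γ₂ →* 𝔾) (hι₁ : Function.Injective ι₁) (g : 𝔾) (c : Γ₂ → Γ₁)
    (hc : ∀ γ, g * ι₂ γ = ι₁ (c γ) * g) : S41Corr 𝔾 Γ₁ Γ₂ Unit where
  ι₁ := ι₁
  ι₂ := ι₂
  hι₁ := hι₁
  α _ := g
  idx _ i := i
  coc γ _ := c γ
  spec γ _ := hc γ
  idx_one _ := rfl
  idx_mul _ _ _ := rfl

theorem conj_trAb (ι₁ : Γ₁ →* 𝔾) (ι₂ : Γ₂ →* 𝔾) (hι₁ : Function.Injective ι₁) (g : 𝔾)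
    (c : Γ₂ → Γ₁) (hc : ∀ γ, g * ι₂ γ = ι₁ (c γ) * g) (γ : Γ₂) :
    (conj ι₁ ι₂ hι₁ g c hc).trAb (Additive.ofMul (Abelianization.of γ))
      = Additive.ofMul (Abelianization.of (c γ)) := by
  rw [trAb_of]
  simp [conj]

/-- on elements acting trivially on the index set, `trAb` is the sum of the conjugates. -/
theorem trAb_of_fixed (γ : Γ₂) (hγ : ∀ i, C.idx γ i = i) (c : I → Γ₁)
    (hc : ∀ i, C.α i * C.ι₂ γ = C.ι₁ (c i) * C.α i) :
    C.trAb (Additive.ofMul (Abelianization.of γ))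
      = ∑ i, Additive.ofMul (Abelianization.of (c i)) := by
  rw [trAb_of]
  refine Finset.sum_congr rfl fun i _ => ?_
  have h := C.spec γ i
  rw [hγ i, hc i] at h
  rw [C.hι₁ (mul_right_cancel h)]

/-! ### matching of coset families -/

omit [Fintype I] in
/-- the cosets `Γ₁ α i` are pairwise distinct. -/
def Distinct : Prop :=
  ∀ (i j : I) (γ' : Γ₁), C.α i = C.ι₁ γ' * C.α j → i = j

omit [Fintype I] in
theorem ofCosets_distinct (ι₁ : Γ₁ →* 𝔾) (ι₂ : Γ₂ →* 𝔾) (hι₁ : Function.Injective ι₁) (α : I → 𝔾)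
    (hex : ∀ (γ : Γ₂) (i : I), ∃ (j : I) (γ' : Γ₁), α i * ι₂ γ = ι₁ γ' * α j)
    (hun : ∀ (i j : I) (γ' : Γ₁), α i = ι₁ γ' * α j → i = j) :
    (ofCosets ι₁ ι₂ hι₁ α hex hun).Distinct := hun

/-- **Matching lemma.**  If the cosets of `C` are distinct, `C'` has as many representatives as `C`
and every coset of `C` contains a representative of `C'`, then `C'.trAb = C.trAb`. -/
theorem trAb_eq_of_matching {I' : Type*} [Fintype I'] (C' : S41Corr 𝔾 Γ₁ Γ₂ I')
    (h₁ : C'.ι₁ = C.ι₁) (h₂ : C'.ι₂ = C.ι₂) (hun : C.Distinct)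
    (hcard : Fintype.card I' = Fintype.card I)
    (hex : ∀ i, ∃ (i' : I') (γ : Γ₁), C'.α i' = C.ι₁ γ * C.α i) :
    C'.trAb = C.trAb := by
  classical
  choose e₀ ε hε using hex
  have hinj : Function.Injective e₀ := by
    intro i j hij
    have h1 := hε i
    rw [hij, hε j] at h1
    refine hun i j ((ε i)⁻¹ * ε j) ?_
    rw [map_mul, map_inv, mul_assoc, h1, inv_mul_cancel_left]
  have hbij : Function.Bijective e₀ :=
    (Fintype.bijective_iff_injective_and_card e₀).mpr ⟨hinj, hcard.symm⟩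
  set e : I ≃ I' := Equiv.ofBijective e₀ hbij with he
  have hun' : C'.Distinct := by
    intro i' j' γ' h
    obtain ⟨i, rfl⟩ := e.surjective i'
    obtain ⟨j, rfl⟩ := e.surjective j'
    have hi : C'.α (e i) = C.ι₁ (ε i) * C.α i := hε i
    have hj : C'.α (e j) = C.ι₁ (ε j) * C.α j := hε j
    rw [hi, hj, h₁] at h
    have : i = j := by
      refine hun i j ((ε i)⁻¹ * γ' * ε j) ?_
      rw [map_mul, map_mul, map_inv, mul_assoc, mul_assoc, ← h, inv_mul_cancel_left]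
    rw [this]
  refine C.trAb_eq_of_equiv C' h₁ h₂ e ε (fun i => hε i) ?_
  intro γ i
  have h : C'.α (e i) * C'.ι₂ γ
      = C'.ι₁ (ε i * C.coc γ i * (ε (C.idx γ i))⁻¹) * C'.α (e (C.idx γ i)) := by
    have hi : C'.α (e i) = C.ι₁ (ε i) * C.α i := hε i
    have hj : C'.α (e (C.idx γ i)) = C.ι₁ (ε (C.idx γ i)) * C.α (C.idx γ i) := hε _
    rw [hi, hj, h₁, h₂, mul_assoc, C.spec, map_mul, map_mul, map_inv]
    group
  exact ((C'.unique_of_distinct hun' h).1).symm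

omit [Fintype I] in
/-- composing a distinct family with a single representative on the right stays distinct. -/
theorem comp_distinct_of_unit (C₁₂ : S41Corr 𝔾 Γ₁ Γ₂ I) (C₂₃ : S41Corr 𝔾 Γ₂ Γ₃ Unit)
    (h : C₁₂.ι₂ = C₂₃.ι₁) (hun : C₁₂.Distinct) : (C₁₂.comp C₂₃ h).Distinct := by
  rintro ⟨i, ⟨⟩⟩ ⟨j, ⟨⟩⟩ γ' hγ
  have h1 : C₁₂.α i * C₂₃.α () = C₁₂.ι₁ γ' * (C₁₂.α j * C₂₃.α ()) := hγ
  rw [← mul_assoc] at h1
  rw [hun i j γ' (mul_right_cancel h1)]

omit [Fintype I] [Fintype J] in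
/-- composing a transfer-type family (representatives in `Γ₂ ⊇ Γ₁`) with a distinct family stays
distinct. -/
theorem comp_distinct_of_transfer (C₁₂ : S41Corr 𝔾 Γ₁ Γ₂ I) (C₂₃ : S41Corr 𝔾 Γ₂ Γ₃ J)
    (h : C₁₂.ι₂ = C₂₃.ι₁) (j : Γ₁ →* Γ₂) (hj : C₁₂.ι₁ = C₁₂.ι₂.comp j) (β : I → Γ₂)
    (hβ : ∀ i, C₁₂.α i = C₁₂.ι₂ (β i)) (hun₁ : C₁₂.Distinct) (hun₂ : C₂₃.Distinct) :
    (C₁₂.comp C₂₃ h).Distinct := by
  rintro ⟨i, k⟩ ⟨i', k'⟩ γ' hγ
  have h1 : C₁₂.α i * C₂₃.α k = C₁₂.ι₁ γ' * (C₁₂.α i' * C₂₃.α k') := hγ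
  have hk : k = k' := by
    refine hun₂ k k' ((β i)⁻¹ * j γ' * β i') ?_
    rw [← h, map_mul, map_mul, map_inv, ← hβ, ← hβ]
    have : C₁₂.ι₂ (j γ') = C₁₂.ι₁ γ' := by rw [hj]; rfl
    rw [this, mul_assoc, mul_assoc, ← h1, inv_mul_cancel_left]
  subst hk
  rw [← mul_assoc] at h1
  rw [hun₁ i i' γ' (mul_right_cancel h1)]

end S41Corr

end Fermat.Agent.S41
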