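/-
S41 / package HK, row 587 (H9) (helper22): every correspondence between `Γ₀(M₂)` and `Γ₀(M₁)` inside
`GL₂(ℝ)` maps the parabolic (resp. parabolic + elliptic) classes to sums of such classes.
Generalisation of helper11's `G/Per/Stable.lean` (`gprT_mem_PE`) from `S16lbHeckeData` to `S41Corr`.
Helper lemmas are prefixed `s41hks_`.
-/
import Fermat.Agent.S41.HK.Defs
import Fermat.Agent.G.Per.Stable

set_option autoImplicit false

noncomputable section

namespace Fermat.Agent.S41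

open P2MW.S_ModularForm_heckeT_slash_eq_self_of_mem_Gamma0.ModularForm.HeckeSlashInvariance
open ModularForm CongruenceSubgroup Matrix.SpecialLinearGroup Fermat.Agent.S16LB Fermat.Agent.G
open scoped MatrixGroups BigOperators

/-! ### the cocycle along an orbit -/

section Cocycle

variable {𝔾 Γ₁ Γ₂ I : Type*} [Group 𝔾] [Group Γ₁] [Group Γ₂] (C : S41Corr 𝔾 Γ₁ Γ₂ I)

theorem s41hks_coc_pow (γ : Γ₂) (i : I) (n : ℕ) :
    C.idx (γ ^ n) i = (⇑(C.perm γ))^[n] i ∧
      Additive.ofMul (Abelianization.of (C.coc (γ ^ n) i))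
        = ∑ j ∈ Finset.range n,
            Additive.ofMul (Abelianization.of (C.coc γ ((⇑(C.perm γ))^[j] i))) := by
  induction n with
  | zero =>
    rw [pow_zero, C.idx_one, C.coc_one]
    simp
  | succ n ih =>
    obtain ⟨h1, h2⟩ := ih
    rw [pow_succ]
    refine ⟨?_, ?_⟩
    · rw [C.idx_mul, h1, Function.iterate_succ_apply']
      rfl
    · rw [C.coc_mul, map_mul, ofMul_mul, h2, h1, Finset.sum_range_succ]

end Cocycle

/-! ### traces of powers, the parabolic case -/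

theorem s41hks_trace_pow_sq_eq (M : Matrix (Fin 2) (Fin 2) ℤ) (hM : M.det = 1)
    (ht : M.trace ^ 2 = 4) (n : ℕ) : (M ^ n).trace ^ 2 = 4 := by
  set t := M.trace with htdef
  have key : ∀ n : ℕ, (M ^ n).trace ^ 2 = 4 ∧ (M ^ (n + 1)).trace ^ 2 = 4 ∧
      (M ^ (n + 1)).trace * 2 = t * (M ^ n).trace := by
    intro n
    induction n with
    | zero =>
      have h0 : (M ^ 0).trace = 2 := by simp
      have h1 : (M ^ (0 + 1)).trace = t := by simp [htdef]
      rw [h0, h1]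
      refine ⟨by norm_num, ht, by ring⟩
    | succ n ih =>
      obtain ⟨hx, hy, hxy⟩ := ih
      have hrec := gprs_trace_pow_rec M hM n
      rw [← htdef] at hrec
      set x := (M ^ n).trace
      set y := (M ^ (n + 1)).trace
      rw [show n + 1 + 1 = n + 2 from rfl, hrec]
      have h2 : (t * y - x) * 2 = t * y := by
        have : t * (y * 2) = t * (t * x) := by rw [hxy]
        have h3 : t * (t * x) = 4 * x := by rw [← mul_assoc, ← pow_two, ht]
        linarith
      refine ⟨hy, ?_, h2⟩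
      have h4 : ((t * y - x) * 2) ^ 2 = 16 := by
        rw [h2, mul_pow, ht, hy]; norm_num
      nlinarith
  exact (key n).1

/-! ### the generic statement -/

section Stable

variable {M₁ M₂ : ℕ} {I : Type*} [Fintype I]
  (C : S41Corr (GL (Fin 2) ℝ) (Gamma0 M₁) (Gamma0 M₂) I)

/-- generic stability: `P` a property of traces stable under powers. -/
theorem s41hks_trAb_mem (P : ℤ → Prop)
    (hP : ∀ (M : Matrix (Fin 2) (Fin 2) ℤ), M.det = 1 → P M.trace → ∀ n : ℕ, P (M ^ n).trace)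
    (h₁ : C.ι₁ = s16lbIota M₁) (h₂ : C.ι₂ = s16lbIota M₂) {x : s16lbAb M₂}
    (hx : x ∈ AddSubgroup.closure {x | ∃ γ : Gamma0 M₂,
      P (((γ : SL(2, ℤ)) : Matrix (Fin 2) (Fin 2) ℤ).trace) ∧
        s16lbCls M₂ (Additive.ofMul γ) = x}) :
    C.trAb x ∈ AddSubgroup.closure {x | ∃ γ : Gamma0 M₁,
      P (((γ : SL(2, ℤ)) : Matrix (Fin 2) (Fin 2) ℤ).trace) ∧
        s16lbCls M₁ (Additive.ofMul γ) = x} := by
  classical
  set S₁ : AddSubgroup (s16lbAb M₁) := AddSubgroup.closure {x | ∃ γ : Gamma0 M₁,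
      P (((γ : SL(2, ℤ)) : Matrix (Fin 2) (Fin 2) ℤ).trace) ∧
        s16lbCls M₁ (Additive.ofMul γ) = x} with hS₁
  induction hx using AddSubgroup.closure_induction with
  | mem x hx =>
    obtain ⟨γ, hγ, rfl⟩ := hx
    have h1 : C.trAb (s16lbCls M₂ (Additive.ofMul γ))
        = ∑ i, Additive.ofMul (Abelianization.of (C.coc γ i)) := C.trAb_of γ
    rw [h1]
    have h2 := gprs_sum_mem_of_stable (C.perm γ)
      (fun i => (Additive.ofMul (Abelianization.of (C.coc γ i)) : s16lbAb M₁)) S₁ ?_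
      Finset.univ (fun i _ => Finset.mem_univ _)
    · exact h2
    · intro i n hn hper
      obtain ⟨h3, h4⟩ := s41hks_coc_pow C γ i n
      rw [← h4]
      refine AddSubgroup.subset_closure ⟨C.coc (γ ^ n) i, ?_, rfl⟩
      have hspec := C.spec (γ ^ n) i
      rw [h3, hper, h₁, h₂, s16lbIota_apply, s16lbIota_apply] at hspec
      have htr := gprs_trace_eq_of_conj (a := C.α i)
        (g := ((γ ^ n : Gamma0 M₂) : SL(2, ℤ)))
        (g' := ((C.coc (γ ^ n) i : Gamma0 M₁) : SL(2, ℤ))) hspec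
      rw [htr]
      have h5 : (((γ ^ n : Gamma0 M₂) : SL(2, ℤ)) : Matrix (Fin 2) (Fin 2) ℤ)
          = ((γ : SL(2, ℤ)) : Matrix (Fin 2) (Fin 2) ℤ) ^ n := by
        rw [Subgroup.coe_pow, Matrix.SpecialLinearGroup.coe_pow]
      rw [h5]
      exact hP _ (γ : SL(2, ℤ)).det_coe hγ n
  | zero => rw [map_zero]; exact S₁.zero_mem
  | add x y _ _ hx hy => rw [map_add]; exact S₁.add_mem hx hy
  | neg x _ hx => rw [map_neg]; exact S₁.neg_mem hx

/-- **(H9a)** a correspondence between `Γ₀(M₂)` and `Γ₀(M₁)` inside `GL₂(ℝ)` maps parabolic classes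
to sums of parabolic classes. -/
theorem s41hk_trAb_mem_par (h₁ : C.ι₁ = s16lbIota M₁) (h₂ : C.ι₂ = s16lbIota M₂)
    {x : s16lbAb M₂} (hx : x ∈ s41hkPar M₂) : C.trAb x ∈ s41hkPar M₁ :=
  s41hks_trAb_mem C (fun t => t ^ 2 = 4) (fun M hM ht n => s41hks_trace_pow_sq_eq M hM ht n)
    h₁ h₂ hx

/-- **(H9b)** the same for the parabolic + elliptic subgroup `gprPE`. -/
theorem s41hk_trAb_mem_PE (h₁ : C.ι₁ = s16lbIota M₁) (h₂ : C.ι₂ = s16lbIota M₂)
    {x : s16lbAb M₂} (hx : x ∈ gprPE M₂) : C.trAb x ∈ gprPE M₁ :=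
  s41hks_trAb_mem C (fun t => t ^ 2 ≤ 4) (fun M hM ht n => gprs_trace_pow_sq_le M hM ht n)
    h₁ h₂ hx

end Stable

end Fermat.Agent.S41
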