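import Fermat.Agent.S41.HK.Defs
import Fermat.Agent.G.Per.Defs

/-!
# S41, package HK, leaf (H3): `A ∘ W ∘ Va = T_q`

The composite correspondence `incl ∘ conj(w) ∘ transfer` has the `q + 1` representatives
`1 * (w * β_x)`; `w β_j = [1, j; 0, q] = heckeRep q j` exactly and `w β_∞ = w = g * diag(q, 1)` with
`g = [1, 1; N s, q t] ∈ Γ₀(N)`.  The matching lemma `S41Corr.trAb_eq_of_matching` then identifies its
`trAb` with the one of the Hecke datum `s16lbDataT N q hq`.
-/

set_option autoImplicit false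

noncomputable section

namespace Fermat.Agent.S41

open P2MW.S_ModularForm_heckeT_slash_eq_self_of_mem_Gamma0.ModularForm.HeckeSlashInvariance
open ModularForm CongruenceSubgroup Matrix.SpecialLinearGroup Fermat.Agent.S16LB Fermat.Agent.G
open scoped MatrixGroups

section

variable {N q : ℕ} [Fact q.Prime] (D : S41hkAL N q)

omit [Fact q.Prime] in
/-- the matrix `g = [1, 1; N s, q t] ∈ Γ₀(N)` with `w = g * diag(q, 1)`. -/
def s41hktq_g : Gamma0 N :=
  ⟨⟨!![1, 1; (N : ℤ) * D.s, (q : ℤ) * D.t], by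
      rw [Matrix.det_fin_two_of]; linear_combination D.h⟩,
    s16lb_mem_Gamma0_of_dvd (by
      show (N : ℤ) ∣ (!![1, 1; (N : ℤ) * D.s, (q : ℤ) * D.t] : Matrix (Fin 2) (Fin 2) ℤ) 1 0
      simp)⟩

omit [Fact q.Prime] in
/-- `w β_x = γ_x · (integer matrix of heckeRep q x)` with `γ_x ∈ Γ₀(N)`. -/
theorem s41hktq_w_mul_beta (x : OnePoint (ZMod q)) :
    ∃ γ : Gamma0 N, D.w.mat * D.betaMat x
      = ((γ : SL(2, ℤ)) : Matrix (Fin 2) (Fin 2) ℤ) * s41hkRepMat q x := by
  induction x using OnePoint.rec with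
  | infty =>
    refine ⟨s41hktq_g D, ?_⟩
    show D.w.mat * 1 = !![1, 1; (N : ℤ) * D.s, (q : ℤ) * D.t]
      * s41hkRepMat q (OnePoint.infty : OnePoint (ZMod q))
    rw [mul_one, S41hkAL.w_mat, s41hkRepMat]
    ext i k
    fin_cases i <;> fin_cases k <;>
      (simp [s16lbRepA, s16lbRepB, s16lbRepD, Matrix.mul_apply, Fin.sum_univ_two]; try ring)
  | coe j =>
    refine ⟨1, ?_⟩
    rw [D.w_mul_beta_coe j]
    show _ = (1 : Matrix (Fin 2) (Fin 2) ℤ) * _
    rw [one_mul]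

omit D in
theorem s41hktq_card :
    Fintype.card (Unit × (Unit × OnePoint (ZMod q))) = Fintype.card (OnePoint (ZMod q)) := by
  rw [Fintype.card_prod, Fintype.card_prod, Fintype.card_unit, one_mul, one_mul]

/-- **(H3)** `A ∘ W ∘ Va = T_q`. -/
theorem s41hk_A_comp_W_comp_Va (hq : ¬ q ∣ N) :
    (s41hkA N q).comp (D.W.comp D.Va) = s41hkT N q hq := by
  have hWVa : D.W.comp D.Va
      = ((s41hkConjCorr D.w.mat_det_ne_zero D.w.conjugates).comp D.VaCorr rfl).trAb :=
    (S41Corr.comp_trAb (s41hkConjCorr D.w.mat_det_ne_zero D.w.conjugates) D.VaCorr rfl).symm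
  have hAll : (s41hkA N q).comp (D.W.comp D.Va)
      = ((S41Corr.incl (s16lbIota N) (s16lbIota_injective N) (s41hkIncl N q)).comp
          ((s41hkConjCorr D.w.mat_det_ne_zero D.w.conjugates).comp D.VaCorr rfl) rfl).trAb := by
    rw [hWVa]
    exact (S41Corr.comp_trAb
      (S41Corr.incl (s16lbIota N) (s16lbIota_injective N) (s41hkIncl N q))
      ((s41hkConjCorr D.w.mat_det_ne_zero D.w.conjugates).comp D.VaCorr rfl) rfl).symm
  rw [hAll]
  show _ = (s16lbDataT N q hq).trEnd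
  rw [← s41hkOfHecke_trAb]
  refine S41Corr.trAb_eq_of_matching (s41hkOfHecke (s16lbDataT N q hq)) _ rfl rfl
    (s41hkOfHecke_distinct _) s41hktq_card ?_
  intro x
  obtain ⟨γ, hγ⟩ := s41hktq_w_mul_beta D x
  refine ⟨((), ((), x)), γ, ?_⟩
  show (1 : GL (Fin 2) ℝ) * (s41hkGL D.w.mat D.w.mat_det_ne_zero * s16lbIota N (D.beta x))
    = s16lbIota N γ * heckeRep q x
  rw [one_mul, s41hk_heckeRep_eq]
  exact s41hk_conj_of_int D.w.mat_det_ne_zero (s41hkRepMat_det_ne_zero q x) hγ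

end

end Fermat.Agent.S41
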