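import Fermat.Agent.S41.HK.Defs

/-!
# S41, package HK, leaf (H7): `W ∘ Va ∘ A = W + U_q`

For `γ₀ ∈ Γ₀(N q)`: `(Va ∘ A)[γ₀] = ∑_x [coc_Va (incl γ₀) x]` over the representatives `β_x` of
`Γ₀(N q) \ Γ₀(N)`.  At `x = ∞` (`β_∞ = 1`) the term is `[γ₀]`.  At `x = j` finite the index
`idx (incl γ₀) j = j'` is finite again, and multiplying `β_j γ₀ = g_j β_j'` on the left by the
Atkin–Lehner matrix `w` (`w β_j = [1, j; 0, q]`) gives `u_j γ₀ = c_w(g_j) u_j'`, i.e.
`c_w(g_j)` is the `U_q`-cocycle of `γ₀` at `j`.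
-/

set_option autoImplicit false

noncomputable section

namespace Fermat.Agent.S41

open P2MW.S_ModularForm_heckeT_slash_eq_self_of_mem_Gamma0.ModularForm.HeckeSlashInvariance
open ModularForm CongruenceSubgroup Matrix.SpecialLinearGroup Fermat.Agent.S16LB
open scoped MatrixGroups

section

variable {N q : ℕ} [Fact q.Prime] (D : S41hkAL N q)

/-- `w β_j = [1, j; 0, q]` in `GL₂(ℝ)`. -/
theorem s41hkh7_w_mul_beta (j : ZMod q) :
    s41hkGL D.w.mat D.w.mat_det_ne_zero * s16lbIota N (D.beta (j : OnePoint (ZMod q)))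
      = heckeRep q (j : OnePoint (ZMod q)) := by
  rw [s16lbIota_apply, s41hkGL_coe_SL, s41hkGL_mul, s41hk_heckeRep_eq]
  exact s41hkGL_congr (D.w_mul_beta_coe j) _

/-- the `Va`-cocycle of an element of `Γ₀(N q)` at `∞`. -/
theorem s41hkh7_coc_infty (γ₀ : Gamma0 (N * q)) :
    D.VaCorr.idx (s41hkIncl N q γ₀) (OnePoint.infty : OnePoint (ZMod q)) = OnePoint.infty ∧
      D.VaCorr.coc (s41hkIncl N q γ₀) (OnePoint.infty : OnePoint (ZMod q)) = γ₀ := by
  have h : D.VaCorr.α (OnePoint.infty : OnePoint (ZMod q)) * D.VaCorr.ι₂ (s41hkIncl N q γ₀)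
      = D.VaCorr.ι₁ γ₀ * D.VaCorr.α (OnePoint.infty : OnePoint (ZMod q)) := by
    rw [D.VaCorr_α, D.VaCorr_ι₁, D.VaCorr_ι₂, D.beta_infty, map_one, one_mul, mul_one,
      s41hkIota_incl]
  obtain ⟨h1, h2⟩ := D.VaCorr.unique_of_distinct D.VaCorr_distinct h
  exact ⟨h1.symm, h2.symm⟩

/-- the `Va`-cocycle of an element of `Γ₀(N q)` at a finite `j`, conjugated by `w`, is the
`U_q`-cocycle. -/
theorem s41hkh7_coc_coe (γ₀ : Gamma0 (N * q)) (j : ZMod q) :
    s41hkConjFun D.w.conjugates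
        (D.VaCorr.coc (s41hkIncl N q γ₀) (j : OnePoint (ZMod q)))
      = (s16lbDataU (N * q) q (dvd_mul_left q N)).coc γ₀ j := by
  set H := s16lbDataU (N * q) q (dvd_mul_left q N) with hH
  -- the index is finite
  obtain ⟨j', hj'⟩ : ∃ j' : ZMod q,
      D.VaCorr.idx (s41hkIncl N q γ₀) (j : OnePoint (ZMod q)) = (j' : OnePoint (ZMod q)) := by
    induction hx : D.VaCorr.idx (s41hkIncl N q γ₀) (j : OnePoint (ZMod q))
      using OnePoint.rec with
    | infty =>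
      exfalso
      have h1 := (s41hkh7_coc_infty D γ₀).1
      have h2 : (D.VaCorr.perm (s41hkIncl N q γ₀)) (j : OnePoint (ZMod q))
          = (D.VaCorr.perm (s41hkIncl N q γ₀)) (OnePoint.infty : OnePoint (ZMod q)) := by
        rw [S41Corr.perm_apply, S41Corr.perm_apply, hx, h1]
      exact OnePoint.coe_ne_infty j ((D.VaCorr.perm (s41hkIncl N q γ₀)).injective h2)
    | coe j' => exact ⟨j', rfl⟩
  have hspec := D.VaCorr.spec (s41hkIncl N q γ₀) (j : OnePoint (ZMod q))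
  rw [hj', D.VaCorr_α, D.VaCorr_α, D.VaCorr_ι₁, D.VaCorr_ι₂, s41hkIota_incl] at hspec
  -- multiply by `w` on the left
  have h : H.α j * H.ι γ₀
      = H.ι (s41hkConjFun D.w.conjugates
          (D.VaCorr.coc (s41hkIncl N q γ₀) (j : OnePoint (ZMod q)))) * H.α j' := by
    show heckeRep q (j : OnePoint (ZMod q)) * s16lbIota (N * q) γ₀
      = s16lbIota (N * q) (s41hkConjFun D.w.conjugates
          (D.VaCorr.coc (s41hkIncl N q γ₀) (j : OnePoint (ZMod q))))
        * heckeRep q (j' : OnePoint (ZMod q))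
    rw [← s41hkh7_w_mul_beta D j, ← s41hkh7_w_mul_beta D j', mul_assoc, hspec, ← mul_assoc,
      s41hkConjFun_specGL D.w.mat_det_ne_zero D.w.conjugates, mul_assoc]
  exact (H.unique h).2

/-- **(H7)** `W ∘ Va ∘ A = W + U_q`. -/
theorem s41hk_W_comp_Va_comp_A :
    D.W.comp (D.Va.comp (s41hkA N q)) = D.W + s41hkU (N * q) q (dvd_mul_left q N) := by
  refine S41Corr.ab_ext fun γ₀ => ?_
  rw [AddMonoidHom.comp_apply, AddMonoidHom.comp_apply, AddMonoidHom.add_apply, s41hkA_of,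
    S41hkAL.Va, S41Corr.trAb_of, map_sum, s41hkU, S16lbHeckeData.trEnd_of]
  have hsum : ∀ f : OnePoint (ZMod q) → s16lbAb (N * q),
      ∑ x, f x = f (OnePoint.infty : OnePoint (ZMod q)) + ∑ j : ZMod q, f (j : OnePoint (ZMod q)) :=
    fun f => Fintype.sum_option f
  rw [hsum, (s41hkh7_coc_infty D γ₀).2]
  congr 1
  refine Finset.sum_congr rfl fun j _ => ?_
  rw [S41hkAL.W, s41hkConjAb_of, s41hkh7_coc_coe D γ₀ j]

end

end Fermat.Agent.S41
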