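import Fermat.Agent.S41.HK.Defs

/-!
# S41, package HK, leaf (H6): the Atkin–Lehner involution commutes with `T_ℓ` at level `N q`

`s41hk_W_comp_T : D.W.comp (s41hkT (N * q) ℓ hℓ) = (s41hkT (N * q) ℓ hℓ).comp D.W`.

Both sides are `trAb` of composite correspondences: `T ∘ W` has the representatives `h_y · w`
(distinct cosets), `W ∘ T` has the representatives `w · h_y`.  Matching: with the adjugate
Atkin–Lehner matrix `w'` (`w w' = w' w = q`), `w' h_y = m' w'` with `m'` integral of determinant `ℓ`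
and `N q ∣ m'₁₀` (`S41hkALMat.exists_conj`), `m' = g h_y'` with `g ∈ Γ₀(N q)` (Lemma F), hence
`h_y w = w g h_y' = c_w(g) w h_y'`, i.e. `w h_y' = c_w(g)⁻¹ h_y w`.
-/

set_option autoImplicit false

noncomputable section

namespace Fermat.Agent.S41

open P2MW.S_ModularForm_heckeT_slash_eq_self_of_mem_Gamma0.ModularForm.HeckeSlashInvariance
open ModularForm CongruenceSubgroup Matrix.SpecialLinearGroup Fermat.Agent.S16LB
open scoped MatrixGroups

section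

variable {N q : ℕ} [Fact q.Prime] (D : S41hkAL N q)

variable (ℓ : ℕ) [Fact ℓ.Prime] (hℓ : ¬ ℓ ∣ N * q)

/-- cancellation of a nonzero integer scalar in `M₂(ℤ)`. -/
theorem s41hkwt_smul_cancel {c : ℤ} (hc : c ≠ 0) {m m' : Matrix (Fin 2) (Fin 2) ℤ}
    (h : c • m = c • m') : m = m' := by
  ext i j
  have h1 := congrFun (congrFun h i) j
  simp only [Matrix.smul_apply, smul_eq_mul] at h1
  exact mul_left_cancel₀ hc h1

include hℓ in
/-- the integer matching identity: `w · h_y' = γ · (h_y · w)` with `γ ∈ Γ₀(N q)`. -/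
theorem s41hkwt_match_int (y : OnePoint (ZMod ℓ)) :
    ∃ (y' : OnePoint (ZMod ℓ)) (γ : Gamma0 (N * q)),
      D.w.mat * s41hkRepMat ℓ y'
        = ((γ : SL(2, ℤ)) : Matrix (Fin 2) (Fin 2) ℤ) * (s41hkRepMat ℓ y * D.w.mat) := by
  have hq0 : (q : ℤ) ≠ 0 := by exact_mod_cast (Fact.out : q.Prime).ne_zero
  have hℓp : ℓ.Prime := Fact.out
  -- (1) conjugation by the adjugate
  have h10 : ((N * q : ℕ) : ℤ) ∣ (s41hkRepMat ℓ y) 1 0 := by
    simp [s41hkRepMat]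
  obtain ⟨m', hm', hdvd⟩ := D.w.adj.exists_conj (s41hkRepMat ℓ y) h10
  -- (2) `det m' = ℓ`
  have hdet : m'.det = ℓ := by
    have h3 := congrArg Matrix.det hm'
    rw [Matrix.det_mul, Matrix.det_mul, s41hkRepMat_det, S41hkALMat.mat_det] at h3
    have : m'.det * (q : ℤ) = (ℓ : ℤ) * q := by rw [← h3]; ring
    exact mul_right_cancel₀ hq0 this
  -- (3) Lemma F
  obtain ⟨g, y', hg, hg10⟩ := s41hk_exists_heckeRep ℓ m' hdet
  -- (4) `g ∈ Γ₀(N q)`
  have hgmem : g ∈ Gamma0 (N * q) := by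
    refine s16lb_mem_Gamma0_of_dvd ?_
    rw [hg10] at hdvd
    have hcop : IsCoprime ((N * q : ℕ) : ℤ) ((s16lbRepA ℓ y' : ℕ) : ℤ) := by
      induction y' using OnePoint.rec with
      | infty =>
        show IsCoprime ((N * q : ℕ) : ℤ) ((ℓ : ℕ) : ℤ)
        exact Nat.isCoprime_iff_coprime.mpr
          (Nat.Coprime.symm ((Nat.Prime.coprime_iff_not_dvd hℓp).mpr hℓ))
      | coe j =>
        show IsCoprime ((N * q : ℕ) : ℤ) ((1 : ℕ) : ℤ)
        rw [Nat.cast_one]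
        exact isCoprime_one_right
    exact hcop.dvd_of_dvd_mul_right hdvd
  -- (5) `h_y · w = w · g · h_y'`
  have h5 : s41hkRepMat ℓ y * D.w.mat
      = D.w.mat * ((g : Matrix (Fin 2) (Fin 2) ℤ) * s41hkRepMat ℓ y') := by
    apply s41hkwt_smul_cancel hq0
    have e1 : D.w.mat * (D.w.adj.mat * s41hkRepMat ℓ y) * D.w.mat
        = (q : ℤ) • (s41hkRepMat ℓ y * D.w.mat) := by
      rw [← Matrix.mul_assoc, D.w.mat_mul_adj, Matrix.smul_mul, Matrix.one_mul, Matrix.smul_mul]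
    have e2 : D.w.mat * (m' * D.w.adj.mat) * D.w.mat
        = (q : ℤ) • (D.w.mat * m') := by
      rw [Matrix.mul_assoc, Matrix.mul_assoc, D.w.adj_mat_mul, Matrix.mul_smul, Matrix.mul_one,
        Matrix.mul_smul]
    rw [← e1, hm', e2, hg]
  -- (6) `w · g = c_w(g) · w`
  have h6 := s41hkConjFun_spec D.w.conjugates (⟨g, hgmem⟩ : Gamma0 (N * q))
  set g' : Gamma0 (N * q) := s41hkConjFun D.w.conjugates (⟨g, hgmem⟩ : Gamma0 (N * q)) with hg'
  have h6' : D.w.mat * (g : Matrix (Fin 2) (Fin 2) ℤ)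
      = ((g' : SL(2, ℤ)) : Matrix (Fin 2) (Fin 2) ℤ) * D.w.mat := h6
  -- (7) conclusion with `γ = c_w(g)⁻¹`
  refine ⟨y', g'⁻¹, ?_⟩
  rw [h5, ← Matrix.mul_assoc D.w.mat, h6', Matrix.mul_assoc, ← Matrix.mul_assoc _ _ (D.w.mat * _)]
  have hinv : (((g'⁻¹ : Gamma0 (N * q)) : SL(2, ℤ)) : Matrix (Fin 2) (Fin 2) ℤ)
      * ((g' : SL(2, ℤ)) : Matrix (Fin 2) (Fin 2) ℤ) = 1 := by
    have : ((g'⁻¹ : Gamma0 (N * q)) : SL(2, ℤ)) * (g' : SL(2, ℤ)) = 1 := by
      rw [← Subgroup.coe_mul, inv_mul_cancel, Subgroup.coe_one]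
    rw [← Matrix.SpecialLinearGroup.coe_mul, this, Matrix.SpecialLinearGroup.coe_one]
  rw [hinv, Matrix.one_mul]

/-- **(H6)** `W ∘ T'_ℓ = T'_ℓ ∘ W`. -/
theorem s41hk_W_comp_T :
    D.W.comp (s41hkT (N * q) ℓ hℓ) = (s41hkT (N * q) ℓ hℓ).comp D.W := by
  set H := s16lbDataT (N * q) ℓ hℓ with hH
  set CW := s41hkConjCorr D.w.mat_det_ne_zero D.w.conjugates with hCW
  have hι : (s41hkOfHecke H).ι₂ = CW.ι₁ := rfl
  have hι' : CW.ι₂ = (s41hkOfHecke H).ι₁ := rfl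
  -- `T ∘ W`
  set C := (s41hkOfHecke H).comp CW hι with hC
  -- `W ∘ T`
  set C' := CW.comp (s41hkOfHecke H) hι' with hC'
  have hT : s41hkT (N * q) ℓ hℓ = (s41hkOfHecke H).trAb := (s41hkOfHecke_trAb H).symm
  have hW : D.W = CW.trAb := rfl
  rw [hT, hW, ← S41Corr.comp_trAb CW (s41hkOfHecke H) hι', ← S41Corr.comp_trAb (s41hkOfHecke H) CW hι]
  refine C.trAb_eq_of_matching C' rfl rfl
    (S41Corr.comp_distinct_of_unit _ _ hι (s41hkOfHecke_distinct H))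
    (Fintype.card_congr (Equiv.prodComm _ _)) ?_
  rintro ⟨y, ⟨⟩⟩
  obtain ⟨y', γ, hγ⟩ := s41hkwt_match_int D ℓ hℓ y
  refine ⟨((), y'), γ, ?_⟩
  show s41hkGL D.w.mat D.w.mat_det_ne_zero * heckeRep ℓ y'
    = s16lbIota (N * q) γ * (heckeRep ℓ y * s41hkGL D.w.mat D.w.mat_det_ne_zero)
  rw [s41hk_heckeRep_eq, s41hk_heckeRep_eq, s16lbIota_apply, s41hkGL_coe_SL, s41hkGL_mul,
    s41hkGL_mul, s41hkGL_mul]
  exact s41hkGL_congr hγ _

end

end Fermat.Agent.S41
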