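import Fermat.Agent.S41.HK.Defs

/-!
# S41, package HK, row S41-HK-H01 (helper11): `B = A ∘ W` and `W ∘ W = 1` (prefix `s41hkwi_`)

* `s41hk_B_eq` (H0): `w = g δ` with `g = [1, 1; N s, q t] ∈ Γ₀(N)`, `δ = diag(q, 1)`, so
  `b(γ) = g⁻¹ · (w γ w⁻¹) · g` and the classes agree in `Γ₀(N)^ab`.
* `s41hk_W_comp_W` (H1): `w · w = q · γ₀` with `γ₀ ∈ Γ₀(N q)`, so `w (w γ w⁻¹) w⁻¹ = γ₀ γ γ₀⁻¹`.
-/

set_option autoImplicit false

noncomputable section

namespace Fermat.Agent.S41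

open P2MW.S_ModularForm_heckeT_slash_eq_self_of_mem_Gamma0.ModularForm.HeckeSlashInvariance
open ModularForm CongruenceSubgroup Matrix.SpecialLinearGroup Fermat.Agent.S16LB
open scoped MatrixGroups

/-- the class of a conjugate `a * b * a⁻¹` in the abelianisation is the class of `b`. -/
theorem s41hkwi_ofMul_conj {Γ : Type*} [Group Γ] (a b : Γ) :
    Additive.ofMul (Abelianization.of (a * b * a⁻¹)) = Additive.ofMul (Abelianization.of b) := by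
  rw [S41Corr.ofMul_of_mul_inv, sub_self, add_zero]

/-- right cancellation of `δ = diag(q, 1)` in `M₂(ℤ)`. -/
theorem s41hkwi_cancel_delta {q : ℕ} (hq : q ≠ 0) {X Y : Matrix (Fin 2) (Fin 2) ℤ}
    (h : X * s41hkDeltaMat q = Y * s41hkDeltaMat q) : X = Y := by
  have hq' : (q : ℤ) ≠ 0 := Nat.cast_ne_zero.2 hq
  ext i j
  have e := congrFun (congrFun h i) j
  fin_cases j
  · simp [s41hkDeltaMat, Matrix.mul_apply, Fin.sum_univ_two] at e
    rcases e with e | e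
    · exact e
    · exact absurd e hq
  · simpa [s41hkDeltaMat, Matrix.mul_apply, Fin.sum_univ_two] using e

section

variable {N q : ℕ} (D : S41hkAL N q)

/-- `g = [1, 1; N s, q t]`, so that `w = g δ`. -/
def s41hkwiGMat : Matrix (Fin 2) (Fin 2) ℤ := !![1, 1; N * D.s, q * D.t]

theorem s41hkwiGMat_det : (s41hkwiGMat D).det = 1 := by
  rw [s41hkwiGMat, Matrix.det_fin_two_of]
  linear_combination D.h

/-- `g ∈ Γ₀(N)`. -/
def s41hkwiG : Gamma0 N :=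
  ⟨⟨s41hkwiGMat D, s41hkwiGMat_det D⟩, s16lb_mem_Gamma0_of_dvd (by
    show (N : ℤ) ∣ (s41hkwiGMat D) 1 0
    simp [s41hkwiGMat])⟩

theorem s41hkwi_w_eq : D.w.mat = s41hkwiGMat D * s41hkDeltaMat q := by
  rw [S41hkAL.w_mat, s41hkwiGMat, s41hkDeltaMat]
  ext i j
  fin_cases i <;> fin_cases j
  · simp [Matrix.mul_apply, Fin.sum_univ_two]
  · simp [Matrix.mul_apply, Fin.sum_univ_two]
  · simp [Matrix.mul_apply, Fin.sum_univ_two]
    ring
  · simp [Matrix.mul_apply, Fin.sum_univ_two]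

/-- `γ₀ = [q + N s, 1 + t; N q s (1 + t), N s + q t²]`, so that `w · w = q · γ₀`. -/
def s41hkwiG0Mat : Matrix (Fin 2) (Fin 2) ℤ :=
  !![(q : ℤ) + N * D.s, 1 + D.t; N * q * (D.s * (1 + D.t)), N * D.s + q * D.t * D.t]

theorem s41hkwiG0Mat_det : (s41hkwiG0Mat D).det = 1 := by
  rw [s41hkwiG0Mat, Matrix.det_fin_two_of]
  linear_combination ((q : ℤ) * D.t - N * D.s + 1) * D.h

/-- `γ₀ ∈ Γ₀(N q)`. -/
def s41hkwiG0 : Gamma0 (N * q) :=
  ⟨⟨s41hkwiG0Mat D, s41hkwiG0Mat_det D⟩, s16lb_mem_Gamma0_of_dvd (by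
    show ((N * q : ℕ) : ℤ) ∣ (s41hkwiG0Mat D) 1 0
    push_cast
    simp [s41hkwiG0Mat])⟩

theorem s41hkwi_w_mul_w : D.w.mat * D.w.mat = (q : ℤ) • s41hkwiG0Mat D := by
  rw [S41hkAL.w_mat, s41hkwiG0Mat]
  ext i j
  fin_cases i <;> fin_cases j <;> simp [Matrix.mul_apply, Fin.sum_univ_two] <;> ring

end

section

variable {N q : ℕ} [Fact q.Prime] (D : S41hkAL N q)

/-- **(H0)** `B = A ∘ W`. -/
theorem s41hk_B_eq : s41hkB N q = (s41hkA N q).comp D.W := by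
  have hq0 : q ≠ 0 := (Fact.out : q.Prime).ne_zero
  refine S41Corr.ab_ext fun γ => ?_
  rw [s41hkB_of, AddMonoidHom.comp_apply, S41hkAL.W, s41hkConjAb_of, s41hkA_of]
  set cγ : Gamma0 (N * q) := s41hkConjFun D.w.conjugates γ with hcγ
  have h1 := s41hkConjFun_spec D.w.conjugates γ
  rw [← hcγ] at h1
  have h2 := s41hkDelta_spec N q γ
  -- `g * b γ = c γ * g` in `M₂(ℤ)`
  have h3 : s41hkwiGMat D * ((s41hkDelta N q γ : SL(2, ℤ)) : Matrix (Fin 2) (Fin 2) ℤ)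
      = ((cγ : SL(2, ℤ)) : Matrix (Fin 2) (Fin 2) ℤ) * s41hkwiGMat D := by
    apply s41hkwi_cancel_delta hq0
    rw [Matrix.mul_assoc, ← h2, ← Matrix.mul_assoc, ← s41hkwi_w_eq, h1, s41hkwi_w_eq,
      Matrix.mul_assoc]
  have h4 : s41hkwiG D * s41hkDelta N q γ = s41hkIncl N q cγ * s41hkwiG D := by
    apply Subtype.ext
    apply Subtype.ext
    exact h3
  have h5 : s41hkIncl N q cγ = s41hkwiG D * s41hkDelta N q γ * (s41hkwiG D)⁻¹ :=
    eq_mul_inv_of_mul_eq h4.symm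
  rw [h5, s41hkwi_ofMul_conj]

/-- **(H1)** `W ∘ W = 1`. -/
theorem s41hk_W_comp_W : D.W.comp D.W = AddMonoidHom.id _ := by
  have hq0 : (q : ℤ) ≠ 0 := Nat.cast_ne_zero.2 (Fact.out : q.Prime).ne_zero
  refine S41Corr.ab_ext fun γ => ?_
  rw [AddMonoidHom.comp_apply, AddMonoidHom.id_apply, S41hkAL.W, s41hkConjAb_of, s41hkConjAb_of]
  set cγ : Gamma0 (N * q) := s41hkConjFun D.w.conjugates γ with hcγ
  set ccγ : Gamma0 (N * q) := s41hkConjFun D.w.conjugates cγ with hccγ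
  have h1 := s41hkConjFun_spec D.w.conjugates γ
  rw [← hcγ] at h1
  have h2 := s41hkConjFun_spec D.w.conjugates cγ
  rw [← hccγ] at h2
  have h3 : s41hkwiG0Mat D * ((γ : SL(2, ℤ)) : Matrix (Fin 2) (Fin 2) ℤ)
      = ((ccγ : SL(2, ℤ)) : Matrix (Fin 2) (Fin 2) ℤ) * s41hkwiG0Mat D := by
    have e : (q : ℤ) • (s41hkwiG0Mat D * ((γ : SL(2, ℤ)) : Matrix (Fin 2) (Fin 2) ℤ))
        = (q : ℤ) • (((ccγ : SL(2, ℤ)) : Matrix (Fin 2) (Fin 2) ℤ) * s41hkwiG0Mat D) := by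
      rw [← Matrix.smul_mul, ← Matrix.mul_smul, ← s41hkwi_w_mul_w, Matrix.mul_assoc, h1,
        ← Matrix.mul_assoc, h2, Matrix.mul_assoc]
    ext i j
    have e' := congrFun (congrFun e i) j
    simp only [Matrix.smul_apply, smul_eq_mul] at e'
    exact mul_left_cancel₀ hq0 e'
  have h4 : s41hkwiG0 D * γ = ccγ * s41hkwiG0 D := by
    apply Subtype.ext
    apply Subtype.ext
    exact h3
  have h5 : ccγ = s41hkwiG0 D * γ * (s41hkwiG0 D)⁻¹ := eq_mul_inv_of_mul_eq h4.symm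
  rw [h5, s41hkwi_ofMul_conj]

end

end Fermat.Agent.S41
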