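import Fermat.Agent.S41.HK.Defs
import Fermat.Agent.G.Per.Defs
import Fermat.Agent.S41.HK.WInv
import Fermat.Agent.S41.HK.AVa
import Fermat.Agent.S41.HK.TqFormula
import Fermat.Agent.S41.HK.UCommT
import Fermat.Agent.S41.HK.ACommT
import Fermat.Agent.S41.HK.VaCommT
import Fermat.Agent.S41.HK.WCommT
import Fermat.Agent.S41.HK.TraceFormula
import Fermat.Agent.S41.HK.Stable

/-!
# S41, package HK: SPEC (typechecked statements of the leaves; each leaf is proved VERBATIM in its own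
file `Fermat/Agent/S41/HK/<File>.lean`, then this file is replaced by imports of those files)

Setting: `N q : ℕ`, `q` prime, `D : S41hkAL N q` (Atkin–Lehner data `q t - N s = 1`; it EXISTS iff
`q ∤ N`: `s41hk_exists_AL`).  Maps between abelianisations (`s16lbAb M = Γ₀(M)^ab`, additive):

  `A  = s41hkA N q`, `B = s41hkB N q : s16lbAb (N * q) →+ s16lbAb N`   (inclusion, conjugation by diag(q,1))
  `Va = D.Va`, `Vb = D.Vb = W ∘ Va   : s16lbAb N →+ s16lbAb (N * q)`   (transfers)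
  `W  = D.W                          : s16lbAb (N * q) →+ s16lbAb (N * q)` (Atkin–Lehner)
  `T_ℓ = s41hkT M ℓ h` (`ℓ ∤ M`), `U_q = s41hkU (N * q) q _`.

They act on characters by PRECOMPOSITION, so `φ ↦ φ ∘ A` is `a^*`, `ψ ↦ ψ ∘ Va` is `a_*` etc.

Leaves: (H0) `B = A ∘ W`; (H1) `W ∘ W = 1`; (H2) `A ∘ Va = q + 1`; (H3) `A ∘ W ∘ Va = T_q`;
(H4) `A ∘ T'_ℓ = T_ℓ ∘ A`; (H5) `Va ∘ T_ℓ = T'_ℓ ∘ Va`; (H6) `W ∘ T'_ℓ = T'_ℓ ∘ W`;
(H7) `W ∘ Va ∘ A = W + U_q`; (H8) `U_q ∘ T'_ℓ = T'_ℓ ∘ U_q`; (H9) every correspondence map preserves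
the parabolic (resp. parabolic + elliptic) subgroups.
-/

set_option autoImplicit false

noncomputable section

namespace Fermat.Agent.S41

open P2MW.S_ModularForm_heckeT_slash_eq_self_of_mem_Gamma0.ModularForm.HeckeSlashInvariance
open ModularForm CongruenceSubgroup Matrix.SpecialLinearGroup Fermat.Agent.S16LB Fermat.Agent.G
open scoped MatrixGroups

section

variable {N q : ℕ} [Fact q.Prime] (D : S41hkAL N q)

-- (H0) `s41hk_B_eq`, (H1) `s41hk_W_comp_W`: DONE, `HK/WInv.lean` (helper11, row 579)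

-- (H2) `s41hk_A_comp_Va`: DONE, `HK/AVa.lean` (helper14, row 580)
-- (H3) `s41hk_A_comp_W_comp_Va`: DONE, `HK/TqFormula.lean` (helper14, row 581)

-- (H7) `s41hk_W_comp_Va_comp_A`: DONE, `HK/TraceFormula.lean` (helper17, row 585)

variable (ℓ : ℕ) [Fact ℓ.Prime] (hℓ : ¬ ℓ ∣ N * q) (hℓ' : ¬ ℓ ∣ N)

-- (H4) `s41hk_A_comp_T`: DONE, `HK/ACommT.lean` (helper7, row 582)
-- (H5) `s41hk_Va_comp_T`: DONE, `HK/VaCommT.lean` (helper3, row 583)
-- (H6) `s41hk_W_comp_T`: DONE, `HK/WCommT.lean` (helper16, row 584)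

-- (H8) `s41hk_U_comp_T`: DONE, `HK/UCommT.lean` (helper26, row 586)

end

/-! ### (H9) stability of the parabolic and parabolic + elliptic subgroups -/

section Stable

variable {M₁ M₂ : ℕ} {I : Type*} [Fintype I]
  (C : S41Corr (GL (Fin 2) ℝ) (Gamma0 M₁) (Gamma0 M₂) I)

-- (H9a) `s41hk_trAb_mem_par`, (H9b) `s41hk_trAb_mem_PE`: DONE, `HK/Stable.lean` (helper22, row 587)

end Stable

end Fermat.Agent.S41
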